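/-
Program MAZ (S15), chapter Red, brick FUND-SEP of X-INJ (helper49): the fundamental identity
`∑_{w | v} e(w | v) = [F' : F]` in ARBITRARY characteristic for a finite SEPARABLE extension of
function fields over an algebraically closed field, and its instance for the special fibres
`κ(N) ⊆ κ(M)` (`κ(N) = modularFunctionFieldFullC k N`, `N ∣ M`, `char k = ℓ ∤ M`).

* `sum_ramificationIndex_sep` : port of `ES/HECKE/FundIdentity19.sum_ramificationIndex`
  (`[CharZero K]` replaced by `[Algebra.IsSeparable F F']`);
* `finrank_fullC`, `finiteDimensional_fullC`, `isSeparable_fullC`, `hres_fullC`,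
  `sum_ramificationIndex_fullC` : the instance `κ(N) ⊆ κ(M)` (= `hdE` of `Measure54.CuspSetup`).
-/
import Mathlib
import Fermat.Agent.ES.HECKE.FundIdentity19
import Fermat.Agent.ES.RED.SumOrdSep15
import Fermat.Agent.ES.RED.SpecialGen25
import Fermat.Agent.RED.PUR.DegBaseChange25
import Fermat.Agent.RED.PUR.SepLaurent25
import Fermat.Agent.X0.FFConst
import Fermat.Agent.M1.Link.QPlace45

set_option autoImplicit false
set_option linter.style.haveILetI false
set_option linter.unusedSectionVars false

open AlgebraicCurve IsDedekindDomain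

noncomputable section

namespace Fermat.Agent.MAZ.Red.FundSep49

open Fermat.Agent.X0 Fermat.Agent.X0.FF

/-! ### The abstract identity -/

section Abstract

variable {K F F' : Type*} [Field K] [Field F] [Field F'] [Algebra K F] [Algebra K F']
  [Algebra F F'] [IsScalarTower K F F']

/-- **The local sum formula, separable form**: for a place `v` of `F`, the ramification indices of
the places of `F'` over `v` sum to `[F' : F]` (`K` algebraically closed of any characteristic,
`F'/F` finite separable). -/
theorem sum_ramificationIndex_sep [IsAlgClosed K] [FiniteDimensional F F']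
    [Algebra.IsSeparable F F'] [HasPrincipalDivisors K F']
    (hres : ∀ w : Place K F', ∀ f ∈ w.toValuationSubring,
      ∃ c : K, f = algebraMap K F' c ∨ 0 < w.ord (f - algebraMap K F' c))
    (v : Place K F) :
    ∑ w ∈ v.fiber F', (w.ramificationIndex F : ℤ) = (Module.finrank F F' : ℤ) := by
  classical
  -- the discrete valuation ring `A = O_v`
  let A := v.toValuationSubring
  letI : Algebra A F' := ((algebraMap F F').comp A.subtype).toAlgebra
  haveI : IsScalarTower A F F' := IsScalarTower.of_algebraMap_eq (fun _ => rfl)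
  -- the integral closure `B` of `A` in `F'`
  let B := integralClosure A F'
  haveI hDedB : IsDedekindDomain B := integralClosure.isDedekindDomain A F F'
  haveI hFracB : IsFractionRing B F' := integralClosure.isFractionRing_of_finite_extension F F'
  haveI hFinB : Module.Finite A B := IsIntegralClosure.finite A F F' B
  haveI hfaith : FaithfulSMul A B :=
    (faithfulSMul_iff_algebraMap_injective _ _).mpr (fun a b h => by
      have h1 : algebraMap A F' a = algebraMap A F' b :=
        congrArg (fun z : B => (z : F')) h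
      exact Subtype.ext ((algebraMap F F').injective h1))
  letI : Algebra K B := ((algebraMap A B).comp (algebraMap K A)).toAlgebra
  haveI : IsScalarTower K A B := IsScalarTower.of_algebraMap_eq (fun _ => rfl)
  haveI : IsScalarTower K B F' := IsScalarTower.of_algebraMap_eq (fun c => by
    show algebraMap K F' c = algebraMap F F' (algebraMap K F c)
    exact IsScalarTower.algebraMap_apply K F F' c)
  -- a uniformiser
  obtain ⟨t, ht⟩ := IsDiscreteValuationRing.exists_irreducible A
  have ht0 : t ≠ 0 := ht.ne_zero
  have hmax : (Ideal.span {t}).IsMaximal := by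
    rw [← ht.maximalIdeal_eq]
    exact IsLocalRing.maximalIdeal.isMaximal A
  have key := sum_ord_of_dedekind (K := K) (F := F') (A := A) (B := B) t ht0 hmax hres
  have htF : algebraMap B F' (algebraMap A B t) = algebraMap F F' (t : F) := rfl
  rw [htF] at key
  have hvt : v.ord (t : F) = 1 := v.ord_coe_irreducible ht
  -- `ord_w t = e(w|v)` on the fibre
  have hord : ∀ w : Place K F', w.restrict F = v →
      w.ord (algebraMap F F' (t : F)) = (w.ramificationIndex F : ℤ) := by
    intro w hw
    rw [w.ord_restrict (t : F), hw, hvt, mul_one]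
  -- the index set is the fibre
  have hset : {w : Place K F' | (∀ b : B, algebraMap B F' b ∈ w.toValuationSubring) ∧
      0 < w.ord (algebraMap F F' (t : F))} = ((v.fiber F' : Finset (Place K F')) : Set (Place K F')) := by
    ext w
    rw [Set.mem_ofPred_eq, Finset.mem_coe, Place.mem_fiber]
    constructor
    · rintro ⟨hB, -⟩
      apply Place.ext
      apply Fermat.Agent.ES.HECKE.FundIdentity19.valuationSubring_eq_of_le v _ _
        (w.restrict F).ne_top'
      intro a ha
      exact hB (algebraMap A B ⟨a, ha⟩)
    · intro hw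
      refine ⟨fun b => ?_, ?_⟩
      · have hA : ∀ a : A, algebraMap A F' a ∈ w.toValuationSubring.toSubring := by
          intro a
          have ha : (a : F) ∈ (w.restrict F).toValuationSubring := by rw [hw]; exact a.2
          exact ha
        let _ : Algebra A w.toValuationSubring :=
          ((algebraMap A F').codRestrict w.toValuationSubring.toSubring hA).toAlgebra
        have : IsScalarTower A w.toValuationSubring F' :=
          IsScalarTower.of_algebraMap_eq fun f => rfl
        have hb : IsIntegral A (algebraMap B F' b) := b.2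
        have hb' : IsIntegral w.toValuationSubring (algebraMap B F' b) := hb.tower_top
        obtain ⟨z, hz⟩ := IsIntegrallyClosed.isIntegral_iff.mp hb'
        exact hz ▸ z.2
      · rw [hord w hw]
        exact_mod_cast w.ramificationIndex_pos (F := F)
  rw [hset] at key
  have hrank : Module.finrank A B = Module.finrank F F' :=
    (IsFractionRing.finrank_eq A F B F').symm
  rw [finsum_mem_coe_finset, hrank] at key
  rw [← key.2]
  refine Finset.sum_congr rfl fun w hw => ?_
  exact (hord w (Place.mem_fiber.mp hw)).symm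

end Abstract

/-! ### The special fibres `κ(N) ⊆ κ(M)` -/

section Concrete

open HahnSeries ModularCurve IntermediateField
open Fermat.Agent.ES.RED.SpecialGen25

variable (k : Type) [Field k] (ℓ : ℕ) [Fact ℓ.Prime] [CharP k ℓ]

theorem jle (N : ℕ) [NeZero N] : k⟮jqModC k⟯ ≤ modularFunctionFieldFullC k N :=
  adjoin_simple_le_iff.mpr (jqModC_mem_full k N)

theorem transcendental_jqModC : Transcendental k (jqModC k) :=
  Fermat.Agent.RED.BASE.TBridge15.transcendental_of_coeff_ne_zero (k := -1) (by norm_num)
    (by rw [coeff_jqModC_neg_one]; exact one_ne_zero)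

theorem order_jqModC49 : (jqModC k).order = -1 :=
  Fermat.Agent.M1.Link.QPlace45.order_jqModC' k

theorem psi_ne_zero (M : ℕ) [NeZero M] : dedekindPsi M ≠ 0 :=
  (Fermat.Agent.X0.GNPsi.gnp_dedekindPsi_pos (NeZero.ne M)).ne'

/-- `[κ(M) : κ(N)] · ψ(N) = ψ(M)` (relative degrees inside `k((q))`). -/
theorem relfinrank_fullC_mul {N M : ℕ} [NeZero N] [NeZero M] (hNM : N ∣ M) (hℓM : ¬ ℓ ∣ M) :
    relfinrank (modularFunctionFieldFullC k N) (modularFunctionFieldFullC k M) * dedekindPsi N =
      dedekindPsi M := by
  have hℓN : ¬ ℓ ∣ N := fun h => hℓM (h.trans hNM)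
  have h := relfinrank_mul_relfinrank (jle k N) (full_degeneracyC_le k hNM)
  rw [Fermat.Agent.RED.PUR.DegBaseChange25.relfinrank_fullC_eq_psi_of_charP ℓ k N hℓN,
    Fermat.Agent.RED.PUR.DegBaseChange25.relfinrank_fullC_eq_psi_of_charP ℓ k M hℓM] at h
  rw [mul_comm]
  exact h

variable {N M : ℕ} [NeZero N] [NeZero M]
  [Algebra ↥(modularFunctionFieldFullC k N) ↥(modularFunctionFieldFullC k M)]
  (hcoe : ∀ x : ↥(modularFunctionFieldFullC k N),
    ((algebraMap ↥(modularFunctionFieldFullC k N) ↥(modularFunctionFieldFullC k M) x :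
      ↥(modularFunctionFieldFullC k M)) : LaurentSeries k) = (x : LaurentSeries k))

include hcoe

theorem isScalarTower_fullC :
    IsScalarTower ↥(modularFunctionFieldFullC k N) ↥(modularFunctionFieldFullC k M)
      (LaurentSeries k) :=
  IsScalarTower.of_algebraMap_eq (fun x => (hcoe x).symm)

/-- the comparison with `extendScalars`. -/
def equivExt (hle : modularFunctionFieldFullC k N ≤ modularFunctionFieldFullC k M) :
    ↥(modularFunctionFieldFullC k M) ≃ₗ[↥(modularFunctionFieldFullC k N)] ↥(extendScalars hle) where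
  toFun y := ⟨y.1, (mem_extendScalars hle).mpr y.2⟩
  invFun y := ⟨y.1, (mem_extendScalars hle).mp y.2⟩
  map_add' _ _ := rfl
  map_smul' a y := by
    apply Subtype.ext
    show ((a • y : ↥(modularFunctionFieldFullC k M)) : LaurentSeries k) =
      (a : LaurentSeries k) * (y : LaurentSeries k)
    rw [Algebra.smul_def]
    show ((algebraMap ↥(modularFunctionFieldFullC k N) ↥(modularFunctionFieldFullC k M) a :
      ↥(modularFunctionFieldFullC k M)) : LaurentSeries k) * (y : LaurentSeries k) = _
    rw [hcoe]
  left_inv _ := rfl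
  right_inv _ := rfl

theorem finrank_eq_relfinrank (hNM : N ∣ M) :
    Module.finrank ↥(modularFunctionFieldFullC k N) ↥(modularFunctionFieldFullC k M) =
      relfinrank (modularFunctionFieldFullC k N) (modularFunctionFieldFullC k M) := by
  rw [relfinrank_eq_finrank_of_le (full_degeneracyC_le k hNM)]
  exact (equivExt k hcoe (full_degeneracyC_le k hNM)).finrank_eq

/-- **`[κ(M) : κ(N)] · ψ(N) = ψ(M)`.** -/
theorem finrank_fullC (hNM : N ∣ M) (hℓM : ¬ ℓ ∣ M) :
    Module.finrank ↥(modularFunctionFieldFullC k N) ↥(modularFunctionFieldFullC k M) *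
      dedekindPsi N = dedekindPsi M := by
  rw [finrank_eq_relfinrank k hcoe hNM]
  exact relfinrank_fullC_mul k ℓ hNM hℓM

theorem finiteDimensional_fullC (hNM : N ∣ M) (hℓM : ¬ ℓ ∣ M) :
    FiniteDimensional ↥(modularFunctionFieldFullC k N) ↥(modularFunctionFieldFullC k M) := by
  apply Module.finite_of_finrank_pos
  apply Nat.pos_of_ne_zero
  intro h0
  have := finrank_fullC k ℓ hcoe hNM hℓM
  rw [h0, zero_mul] at this
  exact psi_ne_zero M this.symm

/-- Every element of `κ(M)` is separable over `k(j̃)` (inside `k((q))`). -/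
theorem isSeparable_adjoin_j [PerfectField k] (hℓM : ¬ ℓ ∣ M)
    (y : ↥(modularFunctionFieldFullC k M)) : IsSeparable ↥(k⟮jqModC k⟯) (y : LaurentSeries k) := by
  have hfin : relfinrank k⟮jqModC k⟯ (modularFunctionFieldFullC k M) ≠ 0 := by
    rw [Fermat.Agent.RED.PUR.DegBaseChange25.relfinrank_fullC_eq_psi_of_charP ℓ k M hℓM]
    exact psi_ne_zero M
  obtain ⟨hfd, hsep⟩ := Fermat.Agent.ES.RED.SpecialDegree25.finite_and_separable_of_order ℓ
    (order_jqModC49 k) (modularFunctionFieldFullC k M) (jle k M) hfin
  have h1 := Algebra.IsSeparable.isSeparable ↥(k⟮jqModC k⟯)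
    (⟨y.1, (mem_extendScalars (jle k M)).mpr y.2⟩ : ↥(extendScalars (jle k M)))
  rwa [IsSeparable, IntermediateField.minpoly_eq] at h1

/-- **`κ(M) / κ(N)` is separable.** -/
theorem isSeparable_fullC [PerfectField k] (hℓM : ¬ ℓ ∣ M) :
    Algebra.IsSeparable ↥(modularFunctionFieldFullC k N) ↥(modularFunctionFieldFullC k M) := by
  haveI := isScalarTower_fullC k hcoe
  refine ⟨fun y => ?_⟩
  have h1 := isSeparable_adjoin_j k ℓ hcoe hℓM y
  -- from `k(j̃)` up to `κ(N)`
  letI : Algebra ↥(k⟮jqModC k⟯) ↥(modularFunctionFieldFullC k N) :=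
    (IntermediateField.inclusion (jle k N)).toRingHom.toAlgebra
  haveI : IsScalarTower ↥(k⟮jqModC k⟯) ↥(modularFunctionFieldFullC k N) (LaurentSeries k) :=
    IsScalarTower.of_algebraMap_eq (fun _ => rfl)
  have h2 : IsSeparable ↥(modularFunctionFieldFullC k N) (y : LaurentSeries k) :=
    IsSeparable.tower_top ↥(modularFunctionFieldFullC k N) h1
  have h3 : minpoly ↥(modularFunctionFieldFullC k N)
      (algebraMap ↥(modularFunctionFieldFullC k M) (LaurentSeries k) y) =
      minpoly ↥(modularFunctionFieldFullC k N) y :=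
    minpoly.algebraMap_eq (algebraMap ↥(modularFunctionFieldFullC k M) (LaurentSeries k)).injective y
  rw [IsSeparable, ← h3]
  exact h2

/-- `j̃` as an element of `κ(M)`. -/
def jC (M : ℕ) [NeZero M] : ↥(modularFunctionFieldFullC k M) := ⟨jqModC k, jqModC_mem_full k M⟩

omit hcoe in
theorem isGen_jC (hℓM : ¬ ℓ ∣ M) : FF.IsGen k (jC k M) := by
  refine isGen_of_relfinrank_ne_zero (modularFunctionFieldFullC k M) (jC k M)
    (transcendental_jqModC k) ?_
  show relfinrank k⟮jqModC k⟯ (modularFunctionFieldFullC k M) ≠ 0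
  rw [Fermat.Agent.RED.PUR.DegBaseChange25.relfinrank_fullC_eq_psi_of_charP ℓ k M hℓM]
  exact psi_ne_zero M

omit hcoe in
/-- The residue fields of the places of `κ(M)` are `k`. -/
theorem hres_fullC [IsAlgClosed k] (hℓM : ¬ ℓ ∣ M)
    (w : Place k ↥(modularFunctionFieldFullC k M)) (f : ↥(modularFunctionFieldFullC k M))
    (hf : f ∈ w.toValuationSubring) :
    ∃ c : k, f = algebraMap k ↥(modularFunctionFieldFullC k M) c ∨
      0 < w.ord (f - algebraMap k ↥(modularFunctionFieldFullC k M) c) :=
  exists_ord_sub_pos (isGen_jC k ℓ hℓM) w hf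

/-- **The fundamental identity for `κ(N) ⊆ κ(M)`** (`N ∣ M`, `char k = ℓ ∤ M`): the ramification
indices of the places of `κ(M)` over a place of `κ(N)` sum to `[κ(M) : κ(N)]`. -/
theorem sum_ramificationIndex_fullC [IsAlgClosed k]
    [IsScalarTower k ↥(modularFunctionFieldFullC k N) ↥(modularFunctionFieldFullC k M)]
    [Algebra.IsIntegral ↥(modularFunctionFieldFullC k N) ↥(modularFunctionFieldFullC k M)]
    [HasPrincipalDivisors k ↥(modularFunctionFieldFullC k M)]
    (hNM : N ∣ M) (hℓM : ¬ ℓ ∣ M) (Q : Place k ↥(modularFunctionFieldFullC k N)) :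
    ∑ Q' ∈ Q.fiber ↥(modularFunctionFieldFullC k M),
      (Q'.ramificationIndex ↥(modularFunctionFieldFullC k N) : ℤ) =
      (Module.finrank ↥(modularFunctionFieldFullC k N) ↥(modularFunctionFieldFullC k M) : ℤ) := by
  haveI := finiteDimensional_fullC k ℓ hcoe hNM hℓM
  haveI := isSeparable_fullC k ℓ hcoe hℓM
  exact sum_ramificationIndex_sep (fun w f hf => hres_fullC k ℓ hℓM w f hf) Q

/-- `Algebra.IsIntegral κ(N) κ(M)` (a consumer may need it to state the fibre). -/
theorem isIntegral_fullC (hNM : N ∣ M) (hℓM : ¬ ℓ ∣ M) :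
    Algebra.IsIntegral ↥(modularFunctionFieldFullC k N) ↥(modularFunctionFieldFullC k M) := by
  haveI := finiteDimensional_fullC k ℓ hcoe hNM hℓM
  exact Algebra.IsIntegral.of_finite _ _

end Concrete

end Fermat.Agent.MAZ.Red.FundSep49
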