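/-
Program MAZ (S15), chapter Red, helper54: THE MASS ARGUMENT (abstract part of X-INJ).

Setting: two towers of function fields `F ⊆ F'` over `K` and `E ⊆ E'` over `k`, and a map of places
`r : Place K F' → Place k E'` (a "reduction map upstairs").  `Compat r f g` says that `r` carries the
divisor of `f ∈ F` (pulled back to `F'`) to the divisor of `g ∈ E` (pulled back to `E'`).

For a place `x` of `F` and a place `Q` of `E` the MASS of `x` over `Q` is
`mass r x Q = ∑_{x' | x, r(x')|_E = Q} e(x' | x)`.  A compatible pair `(f, g)` gives the linear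
relation `∑_x ord_x(f) · mass r x Q = d · ord_Q(g)` (`Mdiv_eq_of_compat`).  From the four relations
for `1/J`, `1/J_p` at the two cusps one gets that the two cusps of `F` have all their mass over the
corresponding cusps of `E` (`cusp_mass`), then the same for the points of the tube of a cusp
(`redTo_of_tubePt`), and finally: a function whose divisor is `m · D`, `D` of degree zero and
supported on one tube, reduces to a function without zeros and poles (`ord_eq_zero_of_tube`).
-/
import Mathlib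
import Fermat.Prelude.Def_AlgebraicCurve_DivisorPushPull
import Fermat.Agent.X0.FFDict

set_option autoImplicit false
set_option linter.unusedSectionVars false
set_option linter.style.haveILetI false

open AlgebraicCurve

noncomputable section

namespace Fermat.Agent.MAZ.Red.Measure54

open Fermat.Agent.X0

variable {K F F' : Type*} [Field K] [Field F] [Field F']
  [Algebra K F] [Algebra K F'] [Algebra F F'] [IsScalarTower K F F']
  [Algebra.IsIntegral F F'] [HasPrincipalDivisors K F']
variable {k E E' : Type*} [Field k] [Field E] [Field E']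
  [Algebra k E] [Algebra k E'] [Algebra E E'] [IsScalarTower k E E']
  [Algebra.IsIntegral E E'] [HasPrincipalDivisors k E']
variable (r : Place K F' → Place k E')

/-! ### Mass -/

open Classical in
/-- The mass of the place `x` of `F` over the place `Q` of `E`. -/
def mass (x : Place K F) (Q : Place k E) : ℤ :=
  ∑ x' ∈ x.fiber F', if (r x').restrict E = Q then (x'.ramificationIndex F : ℤ) else 0

theorem mass_nonneg (x : Place K F) (Q : Place k E) : 0 ≤ mass r x Q := by
  classical
  unfold mass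
  refine Finset.sum_nonneg fun x' _ => ?_
  split_ifs
  · exact Int.natCast_nonneg _
  · exact le_rfl

theorem mass_add_le {d : ℤ}
    (hdF : ∀ x : Place K F, ∑ x' ∈ x.fiber F', (x'.ramificationIndex F : ℤ) = d)
    (x : Place K F) {Q1 Q2 : Place k E} (h : Q1 ≠ Q2) : mass r x Q1 + mass r x Q2 ≤ d := by
  classical
  unfold mass
  rw [← hdF x, ← Finset.sum_add_distrib]
  refine Finset.sum_le_sum fun x' _ => ?_
  by_cases h1 : (r x').restrict E = Q1
  · have h2 : (r x').restrict E ≠ Q2 := fun h2 => h (h1.symm.trans h2)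
    rw [if_pos h1, if_neg h2, add_zero]
  · rw [if_neg h1, zero_add]
    split_ifs
    · exact le_rfl
    · exact Int.natCast_nonneg _

theorem le_mass {x : Place K F} {x' : Place K F'} (hx' : x' ∈ x.fiber F') :
    (x'.ramificationIndex F : ℤ) ≤ mass r x ((r x').restrict E) := by
  classical
  unfold mass
  have h := Finset.single_le_sum (f := fun y : Place K F' =>
      if (r y).restrict E = (r x').restrict E then (y.ramificationIndex F : ℤ) else 0)
    (s := x.fiber F') (fun y _ => by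
      show (0 : ℤ) ≤ if (r y).restrict E = (r x').restrict E then (y.ramificationIndex F : ℤ) else 0
      split_ifs
      · exact Int.natCast_nonneg _
      · exact le_rfl) hx'
  simpa using h

/-- `x` reduces to `Q0`: every place of `F'` above `x` is sent by `r` to a place above `Q0`. -/
def RedTo (x : Place K F) (Q0 : Place k E) : Prop :=
  ∀ x' ∈ x.fiber F', (r x').restrict E = Q0

theorem redTo_of_mass_eq_zero {x : Place K F} {Q0 : Place k E}
    (h : ∀ Q, Q ≠ Q0 → mass r x Q = 0) : RedTo r x Q0 := by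
  intro x' hx'
  by_contra hne
  have h1 := le_mass (E := E) r hx'
  rw [h _ hne] at h1
  have h2 : 0 < x'.ramificationIndex F := x'.ramificationIndex_pos (F := F)
  omega

theorem mass_eq_of_redTo {d : ℤ}
    (hdF : ∀ x : Place K F, ∑ x' ∈ x.fiber F', (x'.ramificationIndex F : ℤ) = d)
    {x : Place K F} {Q0 : Place k E} (h : RedTo r x Q0) : mass r x Q0 = d := by
  classical
  unfold mass
  rw [← hdF x]
  exact Finset.sum_congr rfl fun x' hx' => if_pos (h x' hx')

theorem mass_eq_zero_of_redTo {x : Place K F} {Q0 Q : Place k E} (h : RedTo r x Q0)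
    (hQ : Q ≠ Q0) : mass r x Q = 0 := by
  classical
  unfold mass
  refine Finset.sum_eq_zero fun x' hx' => if_neg ?_
  rw [h x' hx']
  exact fun h' => hQ h'.symm

theorem redTo_of_mass_eq {d : ℤ}
    (hdF : ∀ x : Place K F, ∑ x' ∈ x.fiber F', (x'.ramificationIndex F : ℤ) = d)
    {x : Place K F} {Q0 : Place k E} (h : mass r x Q0 = d) : RedTo r x Q0 := by
  refine redTo_of_mass_eq_zero r fun Q hQ => ?_
  have h1 := mass_add_le r hdF x hQ
  have h2 := mass_nonneg r x Q
  omega

/-! ### The additive maps `fiberSum` and `Mdiv` -/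

/-- `D ↦ ∑_{Q' | Q} (r_* D)(Q')`. -/
def fiberSum (Q : Place k E) : Divisor K F' →+ ℤ :=
  (∑ Q' ∈ Q.fiber E', Finsupp.applyAddHom Q').comp (Finsupp.mapDomain.addMonoidHom r)

theorem fiberSum_apply (Q : Place k E) (D : Divisor K F') :
    fiberSum r Q D = ∑ Q' ∈ Q.fiber E', Finsupp.mapDomain r D Q' := by
  unfold fiberSum
  rw [AddMonoidHom.comp_apply, AddMonoidHom.finsetSum_apply]
  rfl

open Classical in
theorem fiberSum_single (Q : Place k E) (x' : Place K F') (n : ℤ) :
    fiberSum r Q (Finsupp.single x' n) = if (r x').restrict E = Q then n else 0 := by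
  rw [fiberSum_apply, Finsupp.mapDomain_single]
  simp_rw [Finsupp.single_apply]
  rw [Finset.sum_ite_eq]
  simp only [Place.mem_fiber]

/-- `D ↦ ∑_x D(x) · mass r x Q`, as an additive map. -/
def Mdiv (Q : Place k E) : Divisor K F →+ ℤ := (fiberSum r Q).comp (Divisor.pullback F')

theorem Mdiv_single (Q : Place k E) (x : Place K F) (n : ℤ) :
    Mdiv r Q (Finsupp.single x n) = n * mass r x Q := by
  classical
  unfold Mdiv mass
  rw [AddMonoidHom.comp_apply, Divisor.pullback_single, map_sum, Finset.mul_sum]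
  refine Finset.sum_congr rfl fun x' _ => ?_
  rw [fiberSum_single]
  split_ifs
  · rfl
  · rw [mul_zero]

theorem Mdiv_apply (Q : Place k E) (D : Divisor K F) :
    Mdiv r Q D = ∑ z ∈ D.support, D z * mass r z Q := by
  conv_lhs => rw [← Finsupp.sum_single D]
  rw [map_finsuppSum]
  unfold Finsupp.sum
  exact Finset.sum_congr rfl fun z _ => Mdiv_single r Q z _

/-- `r` carries the divisor of `f ∈ F` to the divisor of `g ∈ E` (both pulled back upstairs). -/
def Compat (f : F) (g : E) : Prop :=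
  ∀ D : Divisor K F', (∀ P, D P = P.ord (algebraMap F F' f)) →
    ∀ Q', Finsupp.mapDomain r D Q' = Q'.ord (algebraMap E E' g)

/-- **The mass relation** of a compatible pair. -/
theorem Mdiv_eq_of_compat {d : ℤ}
    (hdE : ∀ Q : Place k E, ∑ Q' ∈ Q.fiber E', (Q'.ramificationIndex E : ℤ) = d)
    {f : F} {g : E} (hfg : Compat r f g) {D : Divisor K F} (hD : ∀ x, D x = x.ord f)
    (Q : Place k E) : Mdiv r Q D = d * Q.ord g := by
  unfold Mdiv
  rw [AddMonoidHom.comp_apply, fiberSum_apply, ← hdE Q, Finset.sum_mul]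
  refine Finset.sum_congr rfl fun Q' hQ' => ?_
  rw [hfg (Divisor.pullback F' D) (fun P => Divisor.pullback_apply_eq_ord hD P) Q',
    Place.ord_restrict, Place.mem_fiber.mp hQ']

theorem Mdiv_nonpos (Q : Place k E) {D : Divisor K F} (hD : ∀ z, D z ≤ 0) : Mdiv r Q D ≤ 0 := by
  rw [Mdiv_apply]
  exact Finset.sum_nonpos fun z _ => mul_nonpos_of_nonpos_of_nonneg (hD z) (mass_nonneg r z Q)

/-- If the negative part of `D` carries no mass over `Q` and `Mdiv r Q D ≤ 0`, then the positive
part carries no mass over `Q` either. -/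
theorem mass_eq_zero_of_pos (Q : Place k E) {D : Divisor K F} (h : Mdiv r Q D ≤ 0)
    (hneg : ∀ z, D z < 0 → mass r z Q = 0) {z : Place K F} (hz : 0 < D z) : mass r z Q = 0 := by
  rw [Mdiv_apply] at h
  have hnn : ∀ y ∈ D.support, 0 ≤ D y * mass r y Q := by
    intro y _
    rcases lt_or_ge (D y) 0 with hy | hy
    · rw [hneg y hy, mul_zero]
    · exact mul_nonneg hy (mass_nonneg r y Q)
  have h0 : ∑ y ∈ D.support, D y * mass r y Q = 0 := le_antisymm h (Finset.sum_nonneg hnn)
  have hzs : z ∈ D.support := Finsupp.mem_support_iff.mpr hz.ne'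
  have := (Finset.sum_eq_zero_iff_of_nonneg hnn).mp h0 z hzs
  rcases mul_eq_zero.mp this with h1 | h1
  · omega
  · exact h1


/-! ### The two cusps -/

/-- The orders of `J`, `J_p` at the two cusps `xi = ∞`, `x0 = 0`. -/
structure CuspOrds {K F : Type*} [Field K] [Field F] [Algebra K F] (J Jp : F) (p : ℕ)
    (xi x0 : Place K F) : Prop where
  ne : xi ≠ x0
  xi_J : xi.ord J = -1
  xi_Jp : xi.ord Jp = -(p : ℤ)
  x0_J : x0.ord J = -(p : ℤ)
  x0_Jp : x0.ord Jp = -1

theorem CuspOrds.swap {K F : Type*} [Field K] [Field F] [Algebra K F] {J Jp : F} {p : ℕ}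
    {xi x0 : Place K F} (h : CuspOrds J Jp p xi x0) : CuspOrds Jp J p x0 xi :=
  ⟨h.ne.symm, h.x0_Jp, h.x0_J, h.xi_Jp, h.xi_J⟩

/-- Standing hypotheses of the cusp computation: degrees, orders of `J`, `J_p` and of their
reductions at the two cusps, poles of `J`, `J_p`, and the two basic compatibilities. -/
structure CuspSetup (J Jp : F) (Jt Jpt : E) (p : ℕ) (d : ℤ) (xi x0 : Place K F)
    (Qi Q0 : Place k E) : Prop where
  hp : 2 ≤ p
  hd : 0 < d
  hdF : ∀ x : Place K F, ∑ x' ∈ x.fiber F', (x'.ramificationIndex F : ℤ) = d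
  hdE : ∀ Q : Place k E, ∑ Q' ∈ Q.fiber E', (Q'.ramificationIndex E : ℤ) = d
  hF : CuspOrds J Jp p xi x0
  hE : CuspOrds Jt Jpt p Qi Q0
  J_poles : ∀ z, z ≠ xi → z ≠ x0 → 0 ≤ z.ord J
  Jp_poles : ∀ z, z ≠ xi → z ≠ x0 → 0 ≤ z.ord Jp
  cJ : Compat r J⁻¹ Jt⁻¹
  cJp : Compat r Jp⁻¹ Jpt⁻¹

theorem CuspSetup.swap {J Jp : F} {Jt Jpt : E} {p : ℕ} {d : ℤ} {xi x0 : Place K F}
    {Qi Q0 : Place k E} (h : CuspSetup r J Jp Jt Jpt p d xi x0 Qi Q0) :
    CuspSetup r Jp J Jpt Jt p d x0 xi Q0 Qi :=
  ⟨h.hp, h.hd, h.hdF, h.hdE, h.hF.swap, h.hE.swap, fun z h1 h2 => h.Jp_poles z h2 h1,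
    fun z h1 h2 => h.J_poles z h2 h1, h.cJp, h.cJ⟩

/-- A point of the tube of the cusp `x0` (at which `ord J = -p`, `ord J_p = -1`): `J(x) = a`,
`J_p(x) = b` with `b ^ p = c * a`, where `1/a` reduces to `0` and `c` reduces to `cb ≠ 0`; the
reduction data enter only through the two compatibilities. -/
def TubePt (J Jp : F) (Jt Jpt : E) (p : ℕ) (x : Place K F) : Prop :=
  ∃ a b c : K, a ≠ 0 ∧ b ≠ 0 ∧ b ^ p = c * a ∧
    0 < x.ord (J - algebraMap K F a) ∧ 0 < x.ord (Jp - algebraMap K F b) ∧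
    Compat r (J⁻¹ - algebraMap K F a⁻¹) Jt⁻¹ ∧
    ∃ cb : k, cb ≠ 0 ∧
      Compat r (1 - algebraMap K F c * (J / Jp ^ p)) (1 - algebraMap k E cb * (Jt / Jpt ^ p))

variable [HasPrincipalDivisors K F]

/-- The mass relation for the inverse of a function `f` whose poles lie in `{xi, x0}`. -/
theorem pole_split {d : ℤ}
    (hdE : ∀ Q : Place k E, ∑ Q' ∈ Q.fiber E', (Q'.ramificationIndex E : ℤ) = d)
    {f : F} (hf : f ≠ 0) {g : E} {xi x0 : Place K F} (hne : xi ≠ x0)
    (hpoles : ∀ z, z ≠ xi → z ≠ x0 → 0 ≤ z.ord f) (hfg : Compat r f⁻¹ g⁻¹) (Q : Place k E) :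
    ∃ Z : ℤ, 0 ≤ Z ∧
      (-xi.ord f) * mass r xi Q + (-x0.ord f) * mass r x0 Q = d * (-Q.ord g) + Z ∧
      (Z = 0 → ∀ z, z ≠ xi → z ≠ x0 → 0 < z.ord f → mass r z Q = 0) := by
  classical
  obtain ⟨D0, hD0, -⟩ := HasPrincipalDivisors.exists_divisor (K := K) f⁻¹ (inv_ne_zero hf)
  have hD0' : ∀ z, D0 z = -z.ord f := fun z => by rw [hD0 z, Place.ord_inv]
  set D1 : Divisor K F := D0 - Finsupp.single xi (-xi.ord f) - Finsupp.single x0 (-x0.ord f)
    with hD1
  have hD1xi : D1 xi = 0 := by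
    rw [hD1, Finsupp.sub_apply, Finsupp.sub_apply, Finsupp.single_eq_same,
      Finsupp.single_eq_of_ne hne, hD0']
    ring
  have hD1x0 : D1 x0 = 0 := by
    rw [hD1, Finsupp.sub_apply, Finsupp.sub_apply, Finsupp.single_eq_same,
      Finsupp.single_eq_of_ne hne.symm, hD0']
    ring
  have hD1z : ∀ z, z ≠ xi → z ≠ x0 → D1 z = -z.ord f := by
    intro z h1 h2
    rw [hD1, Finsupp.sub_apply, Finsupp.sub_apply, Finsupp.single_eq_of_ne h1,
      Finsupp.single_eq_of_ne h2, hD0']
    ring
  have hD1le : ∀ z, D1 z ≤ 0 := by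
    intro z
    by_cases h1 : z = xi
    · rw [h1, hD1xi]
    by_cases h2 : z = x0
    · rw [h2, hD1x0]
    rw [hD1z z h1 h2]
    have := hpoles z h1 h2
    omega
  have hsplit : Mdiv r Q D0 = Mdiv r Q D1 + (-xi.ord f) * mass r xi Q
      + (-x0.ord f) * mass r x0 Q := by
    have : D0 = D1 + Finsupp.single xi (-xi.ord f) + Finsupp.single x0 (-x0.ord f) := by
      rw [hD1]; abel
    conv_lhs => rw [this]
    rw [map_add, map_add, Mdiv_single, Mdiv_single]
  have hrel := Mdiv_eq_of_compat r hdE hfg hD0 Q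
  rw [Place.ord_inv] at hrel
  refine ⟨-Mdiv r Q D1, ?_, ?_, ?_⟩
  · have := Mdiv_nonpos r Q hD1le
    omega
  · rw [hsplit] at hrel
    linarith
  · intro hZ z h1 h2 hz
    have hM : Mdiv r Q D1 = 0 := by omega
    have hneg : D1 z < 0 := by rw [hD1z z h1 h2]; omega
    rw [Mdiv_apply] at hM
    have hnp : ∀ y ∈ D1.support, D1 y * mass r y Q ≤ 0 := fun y _ =>
      mul_nonpos_of_nonpos_of_nonneg (hD1le y) (mass_nonneg r y Q)
    have hzs : z ∈ D1.support := Finsupp.mem_support_iff.mpr hneg.ne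
    have := (Finset.sum_eq_zero_iff_of_nonpos hnp).mp hM z hzs
    rcases mul_eq_zero.mp this with h | h
    · omega
    · exact h

/-- **Cusp masses**: each cusp of `F` has all its mass over the corresponding cusp of `E`, and the
zeros of `J` and of `J_p` carry no mass over the cusps of `E`. -/
theorem cusp_mass {J Jp : F} {Jt Jpt : E} {p : ℕ} {d : ℤ} {xi x0 : Place K F}
    {Qi Q0 : Place k E} (h : CuspSetup r J Jp Jt Jpt p d xi x0 Qi Q0) :
    mass r xi Qi = d ∧ mass r x0 Q0 = d ∧
      (∀ z, 0 < z.ord J → mass r z Qi = 0 ∧ mass r z Q0 = 0) ∧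
      (∀ z, 0 < z.ord Jp → mass r z Qi = 0 ∧ mass r z Q0 = 0) := by
  have hJ0 : J ≠ 0 := by
    rintro rfl
    have := h.hF.xi_J
    rw [Place.ord_zero] at this
    omega
  have hJp0 : Jp ≠ 0 := by
    rintro rfl
    have := h.hF.x0_Jp
    rw [Place.ord_zero] at this
    omega
  obtain ⟨Z1, hZ1, e1, z1⟩ := pole_split r h.hdE hJ0 h.hF.ne h.J_poles h.cJ Qi
  obtain ⟨Z2, hZ2, e2, z2⟩ := pole_split r h.hdE hJ0 h.hF.ne h.J_poles h.cJ Q0
  obtain ⟨Z3, hZ3, e3, z3⟩ := pole_split r h.hdE hJp0 h.hF.ne h.Jp_poles h.cJp Qi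
  obtain ⟨Z4, hZ4, e4, z4⟩ := pole_split r h.hdE hJp0 h.hF.ne h.Jp_poles h.cJp Q0
  rw [h.hF.xi_J, h.hF.x0_J, h.hE.xi_J] at e1
  rw [h.hF.xi_J, h.hF.x0_J, h.hE.x0_J] at e2
  rw [h.hF.xi_Jp, h.hF.x0_Jp, h.hE.xi_Jp] at e3
  rw [h.hF.xi_Jp, h.hF.x0_Jp, h.hE.x0_Jp] at e4
  have ha := mass_nonneg r xi Qi
  have hb := mass_nonneg r xi Q0
  have hc := mass_nonneg r x0 Qi
  have he := mass_nonneg r x0 Q0
  have hab := mass_add_le r h.hdF xi h.hE.ne
  have hce := mass_add_le r h.hdF x0 h.hE.ne
  generalize mass r xi Qi = a at *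
  generalize mass r xi Q0 = b at *
  generalize mass r x0 Qi = c at *
  generalize mass r x0 Q0 = e at *
  have hP2 : (2 : ℤ) ≤ (p : ℤ) := by exact_mod_cast h.hp
  have hP0 : (0 : ℤ) ≤ (p : ℤ) := by omega
  generalize (p : ℤ) = P at *
  have hd := h.hd
  have k1 : P * (a + b) ≤ P * d := mul_le_mul_of_nonneg_left hab hP0
  have k2 : P * (c + e) ≤ P * d := mul_le_mul_of_nonneg_left hce hP0
  have k3 : 2 * b ≤ P * b := mul_le_mul_of_nonneg_right hP2 hb
  have k4 : 2 * c ≤ P * c := mul_le_mul_of_nonneg_right hP2 hc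
  have hb0 : b = 0 := by nlinarith
  have hc0 : c = 0 := by nlinarith
  subst hb0 hc0
  have hZ3' : Z3 = 0 := by nlinarith
  have hZ2' : Z2 = 0 := by nlinarith
  subst hZ3' hZ2'
  have hPpos : (0 : ℤ) < P := by omega
  have ha' : a = d := by
    have : P * a = P * d := by nlinarith
    exact mul_left_cancel₀ hPpos.ne' this
  have he' : e = d := by
    have : P * e = P * d := by nlinarith
    exact mul_left_cancel₀ hPpos.ne' this
  subst ha'
  have hZ1' : Z1 = 0 := by nlinarith
  have hZ4' : Z4 = 0 := by nlinarith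
  refine ⟨rfl, he', fun z hz => ?_, fun z hz => ?_⟩
  · have h1 : z ≠ xi := by
      rintro rfl
      have := h.hF.xi_J
      omega
    have h2 : z ≠ x0 := by
      rintro rfl
      have := h.hF.x0_J
      omega
    exact ⟨z1 hZ1' z h1 h2 hz, z2 rfl z h1 h2 hz⟩
  · have h1 : z ≠ xi := by
      rintro rfl
      have := h.hF.xi_Jp
      omega
    have h2 : z ≠ x0 := by
      rintro rfl
      have := h.hF.x0_Jp
      omega
    exact ⟨z3 rfl z h1 h2 hz, z4 hZ4' z h1 h2 hz⟩

/-! ### Small elements at a place -/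

omit [HasPrincipalDivisors K F] in
theorem adicValuation_lt_one_iff (x : Place K F) {f : F} :
    x.adicValuation f < 1 ↔ f = 0 ∨ 0 < x.ord f := by
  rcases eq_or_ne f 0 with rfl | hf
  · simp
  · rw [x.adicValuation_eq_exp_neg_ord hf, ← WithZero.exp_zero, WithZero.exp_lt_exp,
      or_iff_right hf]
    omega

omit [HasPrincipalDivisors K F] in
theorem adicValuation_algebraMap_eq_one (x : Place K F) {a : K} (ha : a ≠ 0) :
    x.adicValuation (algebraMap K F a) = 1 := by
  have h0 : algebraMap K F a ≠ 0 := by simpa using ha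
  rw [x.adicValuation_eq_exp_neg_ord h0, FF.ord_algebraMap, neg_zero, WithZero.exp_zero]

omit [HasPrincipalDivisors K F] in
/-- If `J(x) = a`, `J_p(x) = b` and `b ^ p = c * a` with `b ≠ 0`, then `1 - c J / J_p ^ p` vanishes
at `x`. -/
theorem adicValuation_tube_lt_one (x : Place K F) {J Jp : F} {p : ℕ} {a b c : K} (hb : b ≠ 0)
    (hbc : b ^ p = c * a) (hJ : 0 < x.ord (J - algebraMap K F a))
    (hJp : 0 < x.ord (Jp - algebraMap K F b)) :
    x.adicValuation (1 - algebraMap K F c * (J / Jp ^ p)) < 1 := by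
  set v := x.adicValuation with hv
  set A' : F := algebraMap K F a with hA'
  set B : F := algebraMap K F b with hB
  set C : F := algebraMap K F c with hC
  have h1 : v (J - A') < 1 := (adicValuation_lt_one_iff x).mpr (Or.inr hJ)
  have h2 : v (Jp - B) < 1 := (adicValuation_lt_one_iff x).mpr (Or.inr hJp)
  have hvB : v B = 1 := adicValuation_algebraMap_eq_one x hb
  have hvC : v C ≤ 1 := x.adicValuation_algebraMap_le_one c
  have hvJp : v Jp = 1 := by
    have : Jp = B + (Jp - B) := by ring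
    rw [this, Valuation.map_add_eq_of_lt_left, hvB]
    rw [hvB]; exact h2
  have hJp0 : Jp ≠ 0 := by
    intro h0
    rw [h0, map_zero] at hvJp
    exact zero_ne_one hvJp
  have hBC : B ^ p = C * A' := by
    rw [hB, hC, hA', ← map_pow, ← map_mul, hbc]
  -- the geometric sum
  set G : F := ∑ i ∈ Finset.range p, Jp ^ i * B ^ (p - 1 - i) with hG
  have hvG : v G ≤ 1 := by
    refine Valuation.map_sum_le v fun i _ => ?_
    rw [map_mul, map_pow, map_pow, hvJp, hvB, one_pow, one_pow, one_mul]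
  have hG' : Jp ^ p - B ^ p = G * (Jp - B) := (geom_sum₂_mul Jp B p).symm
  have h3 : v (Jp ^ p - B ^ p) < 1 := by
    rw [hG', map_mul]
    exact lt_of_le_of_lt (mul_le_of_le_one_left' hvG) h2
  have h4 : v (C * (J - A')) < 1 := by
    rw [map_mul]
    exact lt_of_le_of_lt (mul_le_of_le_one_left' hvC) h1
  have hnum : Jp ^ p - C * J = (Jp ^ p - B ^ p) - C * (J - A') := by
    rw [hBC]; ring
  have h5 : v (Jp ^ p - C * J) < 1 := by
    rw [hnum]
    exact Valuation.map_sub_lt v h3 h4
  have hy : 1 - C * (J / Jp ^ p) = (Jp ^ p - C * J) * (Jp ^ p)⁻¹ := by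
    have : Jp ^ p ≠ 0 := pow_ne_zero _ hJp0
    field_simp
  rw [hy, map_mul, map_inv₀, map_pow, hvJp, one_pow, inv_one, mul_one]
  exact h5

/-! ### Points of the tube reduce to the cusp -/

/-- **Tube points reduce to the cusp**: every place above a point of the tube of `x0` is sent by `r`
to a place above `Q0`. -/
theorem redTo_of_tubePt {J Jp : F} {Jt Jpt : E} {p : ℕ} {d : ℤ} {xi x0 : Place K F}
    {Qi Q0 : Place k E} (h : CuspSetup r J Jp Jt Jpt p d xi x0 Qi Q0) {x : Place K F}
    (hx : TubePt r J Jp Jt Jpt p x) : RedTo r x Q0 := by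
  classical
  obtain ⟨hmi, hm0, hzJ, hzJp⟩ := cusp_mass r h
  obtain ⟨a, b, c, ha, hb, hbc, hxJ, hxJp, hc1, cb, hcb, hc2⟩ := hx
  have hJ0 : J ≠ 0 := by
    rintro rfl
    have := h.hF.xi_J
    rw [Place.ord_zero] at this
    omega
  have hJp0 : Jp ≠ 0 := by
    rintro rfl
    have := h.hF.x0_Jp
    rw [Place.ord_zero] at this
    omega
  have hJt0 : Jt ≠ 0 := by
    rintro rfl
    have := h.hE.xi_J
    rw [Place.ord_zero] at this
    omega
  have hJpt0 : Jpt ≠ 0 := by
    rintro rfl
    have := h.hE.x0_Jp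
    rw [Place.ord_zero] at this
    omega
  have hP2 : (2 : ℤ) ≤ (p : ℤ) := by exact_mod_cast h.hp
  have hc0 : c ≠ 0 := by
    rintro rfl
    rw [zero_mul] at hbc
    exact hb (pow_eq_zero_iff (by have := h.hp; omega) |>.mp hbc)
  refine redTo_of_mass_eq_zero r fun Q hQ => ?_
  by_cases hQi : Q = Qi
  · -- the mass over the other cusp vanishes: use `y = 1 - c J / J_p ^ p`
    subst hQi
    set t : F := algebraMap K F c * (J / Jp ^ p) with ht
    set tb : E := algebraMap k E cb * (Jt / Jpt ^ p) with htb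
    have hC0 : algebraMap K F c ≠ 0 := by simpa using hc0
    have hCb0 : algebraMap k E cb ≠ 0 := by simpa using hcb
    have ht0 : t ≠ 0 := mul_ne_zero hC0 (div_ne_zero hJ0 (pow_ne_zero _ hJp0))
    have htb0 : tb ≠ 0 := mul_ne_zero hCb0 (div_ne_zero hJt0 (pow_ne_zero _ hJpt0))
    have hordt : ∀ z : Place K F, z.ord t = z.ord J - p * z.ord Jp := by
      intro z
      rw [ht, z.ord_mul hC0 (div_ne_zero hJ0 (pow_ne_zero _ hJp0)), FF.ord_algebraMap, zero_add,
        div_eq_mul_inv, z.ord_mul hJ0 (inv_ne_zero (pow_ne_zero _ hJp0)), z.ord_inv, FF.ord_pow]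
      ring
    have hordtb : Q.ord tb = -1 + p * p := by
      rw [htb, Q.ord_mul hCb0 (div_ne_zero hJt0 (pow_ne_zero _ hJpt0)), FF.ord_algebraMap, zero_add,
        div_eq_mul_inv, Q.ord_mul hJt0 (inv_ne_zero (pow_ne_zero _ hJpt0)), Q.ord_inv, FF.ord_pow,
        h.hE.xi_J, h.hE.xi_Jp]
      ring
    have hy0 : 1 - t ≠ 0 := by
      intro h0
      have h1 : t = 1 := (sub_eq_zero.mp h0).symm
      have h2 := hordt xi
      rw [h1, Place.ord_one, h.hF.xi_J, h.hF.xi_Jp] at h2
      nlinarith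
    have hordyb : Q.ord (1 - tb) = 0 := by
      have h1 : Q.ord (1 : E) < Q.ord (-tb) := by
        rw [Place.ord_one, FF.ord_neg, hordtb]
        nlinarith
      have h2 := FF.ord_add_eq_of_lt Q one_ne_zero h1
      rw [← sub_eq_add_neg, Place.ord_one] at h2
      exact h2
    obtain ⟨Dy, hDy, -⟩ := HasPrincipalDivisors.exists_divisor (K := K) (1 - t) hy0
    have hM : Mdiv r Q Dy = 0 := by
      rw [Mdiv_eq_of_compat r h.hdE hc2 hDy Q, hordyb, mul_zero]
    have hneg : ∀ z, Dy z < 0 → mass r z Q = 0 := by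
      intro z hz
      rw [hDy z] at hz
      have htz : z.ord t < 0 := by
        by_contra hnn
        have h1 := FF.ord_sub_ge z (f := 1) (g := t) hy0
        rw [Place.ord_one] at h1
        have h2 : 0 ≤ min (0 : ℤ) (z.ord t) := le_min le_rfl (not_lt.mp hnn)
        omega
      rw [hordt z] at htz
      have h1 : z ≠ xi := by
        rintro rfl
        rw [h.hF.xi_J, h.hF.xi_Jp] at htz
        nlinarith
      have h2 : z ≠ x0 := by
        rintro rfl
        rw [h.hF.x0_J, h.hF.x0_Jp] at htz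
        omega
      have h3 := h.J_poles z h1 h2
      have h4 : 0 < z.ord Jp := by
        by_contra hle
        have : (p : ℤ) * z.ord Jp ≤ 0 :=
          mul_nonpos_of_nonneg_of_nonpos (by omega) (not_lt.mp hle)
        omega
      exact (hzJp z h4).1
    have hxy : 0 < Dy x := by
      rw [hDy x]
      have := (adicValuation_lt_one_iff x).mp (adicValuation_tube_lt_one x hb hbc hxJ hxJp)
      exact this.resolve_left hy0
    exact mass_eq_zero_of_pos r Q hM.le hneg hxy
  · -- the mass over a non-cuspidal place vanishes: use `J - a`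
    have hmxi : mass r xi Q = 0 := by
      have h1 := mass_add_le r h.hdF xi hQi
      have h2 := mass_nonneg r xi Q
      omega
    have hmx0 : mass r x0 Q = 0 := by
      have h1 := mass_add_le r h.hdF x0 hQ
      have h2 := mass_nonneg r x0 Q
      omega
    set u : F := J - algebraMap K F a with hu
    have hu0 : u ≠ 0 := by
      intro h0
      rw [h0, Place.ord_zero] at hxJ
      exact lt_irrefl _ hxJ
    set f1 : F := J⁻¹ - algebraMap K F a⁻¹ with hf1
    have hf1J : f1 * J = algebraMap K F (-a⁻¹) * u := by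
      rw [hf1, hu, sub_mul, inv_mul_cancel₀ hJ0, map_neg, map_inv₀]
      have : algebraMap K F a ≠ 0 := by simpa using ha
      field_simp
      ring
    have hcst : algebraMap K F (-a⁻¹) ≠ 0 := by
      simpa using ha
    have hf10 : f1 ≠ 0 := by
      intro h0
      rw [h0, zero_mul] at hf1J
      exact (mul_ne_zero hcst hu0) hf1J.symm
    obtain ⟨D1, hD1, -⟩ := HasPrincipalDivisors.exists_divisor (K := K) f1 hf10
    obtain ⟨DJ, hDJ, -⟩ := HasPrincipalDivisors.exists_divisor (K := K) J⁻¹ (inv_ne_zero hJ0)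
    have hD2 : ∀ z, (D1 - DJ) z = z.ord u := by
      intro z
      rw [Finsupp.sub_apply, hD1, hDJ, Place.ord_inv, sub_neg_eq_add, ← z.ord_mul hf10 hJ0, hf1J,
        z.ord_mul hcst hu0, FF.ord_algebraMap, zero_add]
    have hM : Mdiv r Q (D1 - DJ) = 0 := by
      rw [map_sub, Mdiv_eq_of_compat r h.hdE hc1 hD1 Q, Mdiv_eq_of_compat r h.hdE h.cJ hDJ Q,
        sub_self]
    have hneg : ∀ z, (D1 - DJ) z < 0 → mass r z Q = 0 := by
      intro z hz
      rw [hD2 z] at hz
      have hzJ' : z.ord J < 0 := by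
        by_contra hnn
        have h1 : min (z.ord J) (z.ord (algebraMap K F a)) ≤ z.ord u :=
          FF.ord_sub_ge z (f := J) (g := algebraMap K F a) hu0
        rw [FF.ord_algebraMap] at h1
        have h2 : 0 ≤ min (z.ord J) (0 : ℤ) := le_min (not_lt.mp hnn) le_rfl
        omega
      by_cases h1 : z = xi
      · rw [h1]; exact hmxi
      by_cases h2 : z = x0
      · rw [h2]; exact hmx0
      have := h.J_poles z h1 h2
      omega
    have hxu : 0 < (D1 - DJ) x := by rw [hD2 x]; exact hxJ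
    exact mass_eq_zero_of_pos r Q hM.le hneg hxu

/-- The cusp `x0` itself reduces to `Q0`. -/
theorem redTo_cusp {J Jp : F} {Jt Jpt : E} {p : ℕ} {d : ℤ} {xi x0 : Place K F}
    {Qi Q0 : Place k E} (h : CuspSetup r J Jp Jt Jpt p d xi x0 Qi Q0) : RedTo r x0 Q0 :=
  redTo_of_mass_eq r h.hdF (cusp_mass r h).2.1

/-! ### The main abstract statement -/

/-- If all points of the support of a degree-zero divisor `D` reduce to the same place `Q0`, and
`(f) = m D` with `f` compatible with `g`, then `g` has neither zeros nor poles. -/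
theorem ord_eq_zero_of_redTo {d : ℤ} (hd : 0 < d)
    (hdF : ∀ x : Place K F, ∑ x' ∈ x.fiber F', (x'.ramificationIndex F : ℤ) = d)
    (hdE : ∀ Q : Place k E, ∑ Q' ∈ Q.fiber E', (Q'.ramificationIndex E : ℤ) = d)
    {Q0 : Place k E} (D : Divisor K F) (hD : ∀ x ∈ D.support, RedTo r x Q0)
    (hdeg : ∑ z ∈ D.support, D z = 0) {f : F} {g : E} (hfg : Compat r f g) (m : ℤ)
    (hf : ∀ z, z.ord f = m * D z) (Q : Place k E) : Q.ord g = 0 := by
  have hE : ∀ z, (m • D) z = z.ord f := fun z => by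
    rw [Finsupp.smul_apply, smul_eq_mul, hf z]
  have h1 := Mdiv_eq_of_compat r hdE hfg hE Q
  rw [map_zsmul, Mdiv_apply, smul_eq_mul] at h1
  have h2 : ∑ z ∈ D.support, D z * mass r z Q = 0 := by
    by_cases hQ : Q = Q0
    · subst hQ
      rw [← mul_zero d, ← hdeg, Finset.mul_sum]
      refine Finset.sum_congr rfl fun z hz => ?_
      rw [mass_eq_of_redTo r hdF (hD z hz), mul_comm]
    · exact Finset.sum_eq_zero fun z hz => by
        rw [mass_eq_zero_of_redTo r (hD z hz) hQ, mul_zero]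
  rw [h2, mul_zero] at h1
  rcases mul_eq_zero.mp h1.symm with h | h
  · omega
  · exact h

/-- **X-INJ, abstract form.** A function whose divisor is `m D`, with `D` of degree zero and
supported on the tube of the cusp `x0`, reduces to a function without zeros and poles. -/
theorem ord_eq_zero_of_tube {J Jp : F} {Jt Jpt : E} {p : ℕ} {d : ℤ} {xi x0 : Place K F}
    {Qi Q0 : Place k E} (h : CuspSetup r J Jp Jt Jpt p d xi x0 Qi Q0) (D : Divisor K F)
    (hD : ∀ x ∈ D.support, x = x0 ∨ TubePt r J Jp Jt Jpt p x)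
    (hdeg : ∑ z ∈ D.support, D z = 0) {f : F} {g : E} (hfg : Compat r f g) (m : ℤ)
    (hf : ∀ z, z.ord f = m * D z) (Q : Place k E) : Q.ord g = 0 := by
  refine ord_eq_zero_of_redTo r h.hd h.hdF h.hdE (Q0 := Q0) D (fun x hx => ?_) hdeg hfg m hf Q
  rcases hD x hx with rfl | hx'
  · exact redTo_cusp r h
  · exact redTo_of_tubePt r h hx'

end Fermat.Agent.MAZ.Red.Measure54
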