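/-
Program MAZ (S15), chapter Red, helper54: the local sum formula `∑_{w | v} e(w|v) = [F' : F]` for a
finite SEPARABLE extension of function fields over a base field of any characteristic all of whose
places have residue field `K` (port of `ES/HECKE/FundIdentity19.sum_ramificationIndex`, which assumes
characteristic zero), and the closure properties of `Measure54.Compat`.
-/
import Mathlib
import Fermat.Agent.ES.HECKE.FundIdentity19
import Fermat.Agent.MAZ.Red.Measure54

set_option autoImplicit false
set_option linter.unusedSectionVars false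
set_option linter.style.haveILetI false

open AlgebraicCurve IsDedekindDomain

noncomputable section

namespace Fermat.Agent.MAZ.Red.FundSep54

open Fermat.Agent.X0 Fermat.Agent.X0.FF Fermat.Agent.ES.HECKE.FundIdentity19
open Fermat.Agent.MAZ.Red.Measure54

section Fund

variable {K F F' : Type*} [Field K] [Field F] [Field F'] [Algebra K F] [Algebra K F']
  [Algebra F F'] [IsScalarTower K F F']

/-- **The local sum formula, separable case**: for a place `v` of `F`, the ramification indices of
the places of `F'` over `v` sum to `[F' : F]`. -/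
theorem sum_ramificationIndex_of_isSeparable [FiniteDimensional F F'] [Algebra.IsSeparable F F']
    [HasPrincipalDivisors K F']
    (hres : ∀ w : Place K F', ∀ f ∈ w.toValuationSubring,
      ∃ c : K, f = algebraMap K F' c ∨ 0 < w.ord (f - algebraMap K F' c))
    (v : Place K F) :
    ∑ w ∈ v.fiber F', (w.ramificationIndex F : ℤ) = (Module.finrank F F' : ℤ) := by
  classical
  -- the discrete valuation ring `A = O_v`
  let A := v.toValuationSubring
  letI : Algebra A F' := ((algebraMap F F').comp A.subtype).toAlgebra
  haveI : IsScalarTower A F F' := IsScalarTower.of_algebraMap_eq (fun _ => rfl)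
  -- the integral closure `B` of `A` in `F'`
  let B := integralClosure A F'
  haveI hDedB : IsDedekindDomain B := integralClosure.isDedekindDomain A F F'
  haveI hFracB : IsFractionRing B F' := integralClosure.isFractionRing_of_finite_extension F F'
  haveI hFinB : Module.Finite A B := IsIntegralClosure.finite A F F' B
  haveI hfaith : FaithfulSMul A B :=
    (faithfulSMul_iff_algebraMap_injective _ _).mpr (fun a b h => by
      have h1 : algebraMap A F' a = algebraMap A F' b :=
        congrArg (fun z : B => (z : F')) h
      exact Subtype.ext ((algebraMap F F').injective h1))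
  letI : Algebra K B := ((algebraMap A B).comp (algebraMap K A)).toAlgebra
  haveI : IsScalarTower K A B := IsScalarTower.of_algebraMap_eq (fun _ => rfl)
  haveI : IsScalarTower K B F' := IsScalarTower.of_algebraMap_eq (fun c => by
    show algebraMap K F' c = algebraMap F F' (algebraMap K F c)
    exact IsScalarTower.algebraMap_apply K F F' c)
  -- a uniformiser
  obtain ⟨t, ht⟩ := IsDiscreteValuationRing.exists_irreducible A
  have ht0 : t ≠ 0 := ht.ne_zero
  have hmax : (Ideal.span {t}).IsMaximal := by
    rw [← ht.maximalIdeal_eq]
    exact IsLocalRing.maximalIdeal.isMaximal A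
  have key := sum_ord_of_dedekind (K := K) (F := F') (A := A) (B := B) t ht0 hmax hres
  have htF : algebraMap B F' (algebraMap A B t) = algebraMap F F' (t : F) := rfl
  rw [htF] at key
  have hvt : v.ord (t : F) = 1 := v.ord_coe_irreducible ht
  -- `ord_w t = e(w|v)` on the fibre
  have hord : ∀ w : Place K F', w.restrict F = v →
      w.ord (algebraMap F F' (t : F)) = (w.ramificationIndex F : ℤ) := by
    intro w hw
    rw [w.ord_restrict (t : F), hw, hvt, mul_one]
  -- the index set is the fibre
  have hset : {w : Place K F' | (∀ b : B, algebraMap B F' b ∈ w.toValuationSubring) ∧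
      0 < w.ord (algebraMap F F' (t : F))} = ((v.fiber F' : Finset (Place K F')) : Set (Place K F')) := by
    ext w
    rw [Set.mem_ofPred_eq, Finset.mem_coe, Place.mem_fiber]
    constructor
    · rintro ⟨hB, -⟩
      apply Place.ext
      apply valuationSubring_eq_of_le v _ _ (w.restrict F).ne_top'
      intro a ha
      exact hB (algebraMap A B ⟨a, ha⟩)
    · intro hw
      refine ⟨fun b => ?_, ?_⟩
      · have hA : ∀ a : A, algebraMap A F' a ∈ w.toValuationSubring.toSubring := by
          intro a
          have ha : (a : F) ∈ (w.restrict F).toValuationSubring := by rw [hw]; exact a.2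
          exact ha
        let _ : Algebra A w.toValuationSubring :=
          ((algebraMap A F').codRestrict w.toValuationSubring.toSubring hA).toAlgebra
        have : IsScalarTower A w.toValuationSubring F' :=
          IsScalarTower.of_algebraMap_eq fun f => rfl
        have hb : IsIntegral A (algebraMap B F' b) := b.2
        have hb' : IsIntegral w.toValuationSubring (algebraMap B F' b) := hb.tower_top
        obtain ⟨z, hz⟩ := IsIntegrallyClosed.isIntegral_iff.mp hb'
        exact hz ▸ z.2
      · rw [hord w hw]
        exact_mod_cast w.ramificationIndex_pos (F := F)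
  rw [hset] at key
  have hrank : Module.finrank A B = Module.finrank F F' :=
    (IsFractionRing.finrank_eq A F B F').symm
  rw [finsum_mem_coe_finset, hrank] at key
  rw [← key.2]
  refine Finset.sum_congr rfl fun w hw => ?_
  exact (hord w (Place.mem_fiber.mp hw)).symm

end Fund

section CompatAlg

variable {K F F' : Type*} [Field K] [Field F] [Field F']
  [Algebra K F] [Algebra K F'] [Algebra F F'] [IsScalarTower K F F']
  [Algebra.IsIntegral F F'] [HasPrincipalDivisors K F']
variable {k E E' : Type*} [Field k] [Field E] [Field E']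
  [Algebra k E] [Algebra k E'] [Algebra E E'] [IsScalarTower k E E']
  [Algebra.IsIntegral E E'] [HasPrincipalDivisors k E']
variable (r : Place K F' → Place k E')

theorem compat_mul {f1 f2 : F} {g1 g2 : E} (hf1 : f1 ≠ 0) (hf2 : f2 ≠ 0) (hg1 : g1 ≠ 0)
    (hg2 : g2 ≠ 0) (h1 : Compat r f1 g1) (h2 : Compat r f2 g2) : Compat r (f1 * f2) (g1 * g2) := by
  intro D hD Q'
  have hf1' : algebraMap F F' f1 ≠ 0 := by simpa using hf1
  have hf2' : algebraMap F F' f2 ≠ 0 := by simpa using hf2
  have hg1' : algebraMap E E' g1 ≠ 0 := by simpa using hg1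
  have hg2' : algebraMap E E' g2 ≠ 0 := by simpa using hg2
  obtain ⟨D1, hD1, -⟩ := HasPrincipalDivisors.exists_divisor (K := K) (algebraMap F F' f1) hf1'
  have hD2 : ∀ P, (D - D1) P = P.ord (algebraMap F F' f2) := by
    intro P
    rw [Finsupp.sub_apply, hD P, hD1 P, map_mul, P.ord_mul hf1' hf2']
    ring
  have e1 := h1 D1 hD1 Q'
  have e2 := h2 (D - D1) hD2 Q'
  have : D = D1 + (D - D1) := by abel
  rw [this, Finsupp.mapDomain_add, Finsupp.add_apply, e1, e2, map_mul, Q'.ord_mul hg1' hg2']

theorem compat_inv {f : F} {g : E} (h : Compat r f g) : Compat r f⁻¹ g⁻¹ := by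
  intro D hD Q'
  have hD' : ∀ P, (-D) P = P.ord (algebraMap F F' f) := by
    intro P
    rw [Finsupp.neg_apply, hD P, map_inv₀, P.ord_inv, neg_neg]
  have e := h (-D) hD' Q'
  have hneg : Finsupp.mapDomain r D = -(Finsupp.mapDomain r (-D)) := by
    have := (Finsupp.mapDomain.addMonoidHom (M := ℤ) r).map_neg (-D)
    rw [neg_neg] at this
    exact this
  rw [hneg, Finsupp.neg_apply, e, map_inv₀, Q'.ord_inv]

theorem compat_const (c : K) (c' : k) : Compat r (algebraMap K F c) (algebraMap k E c') := by
  intro D hD Q'
  have hD0 : D = 0 := by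
    ext P
    rw [hD P, ← IsScalarTower.algebraMap_apply, FF.ord_algebraMap, Finsupp.zero_apply]
  rw [hD0, Finsupp.mapDomain_zero, Finsupp.zero_apply, ← IsScalarTower.algebraMap_apply,
    FF.ord_algebraMap]

theorem compat_div {f1 f2 : F} {g1 g2 : E} (hf1 : f1 ≠ 0) (hf2 : f2 ≠ 0) (hg1 : g1 ≠ 0)
    (hg2 : g2 ≠ 0) (h1 : Compat r f1 g1) (h2 : Compat r f2 g2) : Compat r (f1 / f2) (g1 / g2) := by
  rw [div_eq_mul_inv, div_eq_mul_inv]
  exact compat_mul r hf1 (inv_ne_zero hf2) hg1 (inv_ne_zero hg2) h1 (compat_inv r h2)

end CompatAlg

end Fermat.Agent.MAZ.Red.FundSep54
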