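/-
Program MAZ (S15), chapter Red, helper54: the level towers `FF N ⊆ FF M` (over `ℚbar`) and
`κ(N) ⊆ κ(M)` (over the residue field) as instances, and `Measure54.Compat` for pairs of functions
which are the two images of ONE integral `q`-expansion, from the Prelude's `IsPlaceReductionAlong` at
the upper level `M`.
-/
import Mathlib
import Fermat.Prelude.Def_ModularCurve_ReductionModL
import Fermat.Agent.ES.HECKE.LevelPullback12
import Fermat.Agent.MAZ.Red.FundSep54

set_option autoImplicit false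
set_option linter.unusedSectionVars false
set_option linter.style.haveILetI false

open AlgebraicCurve ModularCurve HahnSeries

noncomputable section

namespace Fermat.Agent.MAZ.Red.CompatInst54

open Fermat.Agent.X0 Fermat.Agent.ES.HECKE.LevelPullback12
open Fermat.Agent.MAZ.Red.Measure54 Fermat.Agent.MAZ.Red.FundSep54

/-- `ℚbar` (local notation; the same term as `X0.Kbar`, `XSpec62.Qb`). -/
local notation "Qb" => AlgebraicClosure ℚ

/-- The special fibre function field `κ(N) = k(j̃(q^d) : d ∣ N)`. -/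
abbrev Kap (k : Type*) [Field k] (N : ℕ) : Type _ := ↥(modularFunctionFieldFullC k N)

section Towers

variable {N M : ℕ} [NeZero N] [NeZero M] [hNM : Fact (N ∣ M)]

/-- `FF N ⊆ FF M` as an algebra. -/
scoped instance algBar : Algebra (FF N) (FF M) := algebraAlong (levelIncl hNM.out)

scoped instance towerBar : IsScalarTower Qb (FF N) (FF M) := isScalarTower_along (levelIncl hNM.out)

scoped instance integralBar : Algebra.IsIntegral (FF N) (FF M) :=
  isIntegral_along (levelIncl hNM.out) (levelIncl_isIntegral hNM.out)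

scoped instance hpdBar (N : ℕ) [NeZero N] : HasPrincipalDivisors Qb (FF N) :=
  Fermat.Agent.RED.TOP.FbarFacts20.hasPrincipalDivisors_bar N

theorem coe_algebraMap_bar (f : FF N) :
    ((algebraMap (FF N) (FF M) f : FF M) : LaurentSeries Qb) = (f : LaurentSeries Qb) :=
  coe_levelIncl hNM.out f

variable (k : Type*) [Field k]

/-- The inclusion `κ(N) ⊆ κ(M)`. -/
abbrev levelInclC : Kap k N →ₐ[k] Kap k M :=
  IntermediateField.inclusion (full_degeneracyC_le k hNM.out)

theorem coe_levelInclC (g : Kap k N) :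
    ((levelInclC (hNM := hNM) k g : Kap k M) : LaurentSeries k) = (g : LaurentSeries k) :=
  IntermediateField.coe_inclusion _ g

/-- `κ(N) ⊆ κ(M)` as an algebra. -/
scoped instance algC : Algebra (Kap k N) (Kap k M) := algebraAlong (levelInclC (hNM := hNM) k)

scoped instance towerC : IsScalarTower k (Kap k N) (Kap k M) :=
  isScalarTower_along (levelInclC (hNM := hNM) k)

theorem coe_algebraMap_C (g : Kap k N) :
    ((algebraMap (Kap k N) (Kap k M) g : Kap k M) : LaurentSeries k) = (g : LaurentSeries k) :=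
  coe_levelInclC k g

end Towers

/-! ### Pairs coming from one integral series -/

section Same

variable {A : ValuationSubring Qb} {k : Type*} [Field k] (π : A →+* k)

/-- `f ∈ FF N` and `g ∈ κ(N)` are the generic and the special image of one `A`-integral
`q`-expansion. -/
def SameSeries (N : ℕ) [NeZero N] (f : FF N) (g : Kap k N) : Prop :=
  ∃ y : LaurentSeries A, (f : LaurentSeries Qb) = coeffMap A.subtype y ∧
    (g : LaurentSeries k) = coeffMap π y

variable {N : ℕ} [NeZero N]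

theorem SameSeries.add {f1 f2 : FF N} {g1 g2 : Kap k N} (h1 : SameSeries π N f1 g1)
    (h2 : SameSeries π N f2 g2) : SameSeries π N (f1 + f2) (g1 + g2) := by
  obtain ⟨y1, a1, b1⟩ := h1
  obtain ⟨y2, a2, b2⟩ := h2
  refine ⟨y1 + y2, ?_, ?_⟩
  · rw [map_add, ← a1, ← a2]; rfl
  · rw [map_add, ← b1, ← b2]; rfl

theorem SameSeries.mul {f1 f2 : FF N} {g1 g2 : Kap k N} (h1 : SameSeries π N f1 g1)
    (h2 : SameSeries π N f2 g2) : SameSeries π N (f1 * f2) (g1 * g2) := by
  obtain ⟨y1, a1, b1⟩ := h1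
  obtain ⟨y2, a2, b2⟩ := h2
  refine ⟨y1 * y2, ?_, ?_⟩
  · rw [map_mul, ← a1, ← a2]; rfl
  · rw [map_mul, ← b1, ← b2]; rfl

theorem SameSeries.neg {f : FF N} {g : Kap k N} (h : SameSeries π N f g) :
    SameSeries π N (-f) (-g) := by
  obtain ⟨y, a, b⟩ := h
  refine ⟨-y, ?_, ?_⟩
  · rw [map_neg, ← a]; rfl
  · rw [map_neg, ← b]; rfl

theorem SameSeries.sub {f1 f2 : FF N} {g1 g2 : Kap k N} (h1 : SameSeries π N f1 g1)
    (h2 : SameSeries π N f2 g2) : SameSeries π N (f1 - f2) (g1 - g2) := by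
  rw [sub_eq_add_neg, sub_eq_add_neg]
  exact h1.add π h2.neg

theorem SameSeries.pow {f : FF N} {g : Kap k N} (h : SameSeries π N f g) (n : ℕ) :
    SameSeries π N (f ^ n) (g ^ n) := by
  obtain ⟨y, a, b⟩ := h
  refine ⟨y ^ n, ?_, ?_⟩
  · rw [map_pow, ← a]; rfl
  · rw [map_pow, ← b]; rfl

theorem sameSeries_one : SameSeries π N (1 : FF N) (1 : Kap k N) :=
  ⟨1, by rw [map_one]; rfl, by rw [map_one]; rfl⟩

/-- constants of `A` -/
theorem sameSeries_const (u : A) :
    SameSeries π N (algebraMap Qb (FF N) (u : Qb)) (algebraMap k (Kap k N) (π u)) := by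
  refine ⟨HahnSeries.single 0 u, ?_, ?_⟩
  · rw [coeffMap_single]
    show algebraMap Qb (LaurentSeries Qb) (u : Qb) = _
    rw [algebraMap_laurentSeries_eq_single]
    rfl
  · rw [coeffMap_single]
    show algebraMap k (LaurentSeries k) (π u) = _
    rw [algebraMap_laurentSeries_eq_single]

/-- `j̃(q^d)` as an element of `κ(N)`. -/
def jdC (k : Type*) [Field k] (N d : ℕ) [NeZero d] (hd : d ∣ N) : Kap k N :=
  ⟨qExpand k d (jqModC k), jqModCd_mem_full k N hd⟩

theorem coe_jdC (d : ℕ) [NeZero d] (hd : d ∣ N) :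
    ((jdC k N d hd : Kap k N) : LaurentSeries k) = qExpand k d (jqModC k) := rfl

theorem coe_jdF' (d : ℕ) [NeZero d] (hd : d ∣ N) :
    ((jdF N d hd : FF N) : LaurentSeries Qb) = qExpand Qb d (jqModC Qb) := by
  show coeffEmb Qb (qExpand ℚ d jq) = _
  have h := coeffMap_jqNModC (algebraMap ℚ Qb) d
  rw [jqNModC, jqNModC] at h
  exact h

/-- `j̃` as an element of `κ(N)` (the same term as `FundSep49.jC`, `CuspZeroC62`). -/
def jC (k : Type*) [Field k] (N : ℕ) : Kap k N := ⟨jqModC k, jqModC_mem_full k N⟩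

/-- the generator `j` -/
theorem sameSeries_j : SameSeries π N (jF N) (jC k N) := by
  refine ⟨jqModC A, ?_, ?_⟩
  · show ((jdF N 1 (one_dvd N) : FF N) : LaurentSeries Qb) = _
    rw [coe_jdF', qExpand_one_apply, coeffMap_jqModC]
  · rw [coeffMap_jqModC]; rfl

/-- the generators `j(q^d)` -/
theorem sameSeries_jd (d : ℕ) [NeZero d] (hd : d ∣ N) :
    SameSeries π N (jdF N d hd) (jdC k N d hd) := by
  refine ⟨jqNModC A d, ?_, ?_⟩
  · rw [coe_jdF', coeffMap_jqNModC]; rfl
  · rw [coe_jdC, coeffMap_jqNModC]; rfl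

end Same

/-! ### `Compat` from `IsPlaceReductionAlong` -/

section Compat

variable {N M : ℕ} [NeZero N] [NeZero M] [hNM : Fact (N ∣ M)]
variable {A : ValuationSubring Qb} {k : Type*} [Field k] (π : A →+* k)
variable [Algebra.IsIntegral (Kap k N) (Kap k M)] [HasPrincipalDivisors k (Kap k M)]
variable {r : Place Qb (FF M) → Place k (Kap k M)}

/-- A pair coming from one integral series, with nonzero reduction, is compatible with every place
reduction at the upper level. -/
theorem compat_of_sameSeries (hr : IsPlaceReductionAlong A π M r) {f : FF N} {g : Kap k N}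
    (h : SameSeries π N f g) (hg : g ≠ 0) : Compat r f g := by
  obtain ⟨y, hf, hgy⟩ := h
  intro D hD Q'
  have hy : coeffMap A.subtype y ∈ laurentBaseChange Qb (modularFunctionFieldFull M) := by
    rw [← hf, ← coe_algebraMap_bar (M := M) f]
    exact (algebraMap (FF N) (FF M) f).2
  have hyk : coeffMap π y ∈ modularFunctionFieldFullC k M := by
    rw [← hgy, ← coe_algebraMap_C (M := M) k g]
    exact (algebraMap (Kap k N) (Kap k M) g).2
  have hne : coeffMap π y ≠ 0 := by
    rw [← hgy]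
    exact fun h0 => hg (Subtype.ext h0)
  have e1 : algebraMap (FF N) (FF M) f =
      (⟨coeffMap A.subtype y, hy⟩ : ↥(laurentBaseChange Qb (modularFunctionFieldFull M))) :=
    Subtype.ext (by rw [coe_algebraMap_bar, hf])
  have e2 : algebraMap (Kap k N) (Kap k M) g =
      (⟨coeffMap π y, hyk⟩ : ↥(modularFunctionFieldFullC k M)) :=
    Subtype.ext (by rw [coe_algebraMap_C, hgy])
  have := hr.2 y hy hyk hne D (fun P => by rw [hD P, e1]) Q'
  rw [this, e2]

end Compat

/-! ### Points of a tube are `TubePt`s -/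

section Tube

variable {N M : ℕ} [NeZero N] [NeZero M] [hNM : Fact (N ∣ M)]
variable {A : ValuationSubring Qb} {k : Type*} [Field k] (π : A →+* k)
variable [Algebra.IsIntegral (Kap k N) (Kap k M)] [HasPrincipalDivisors k (Kap k M)]
variable {r : Place Qb (FF M) → Place k (Kap k M)}

omit [NeZero N] [NeZero M] hNM in
/-- an element outside `A` is nonzero, and its inverse is a non-unit of `A`. -/
theorem inv_data_of_notMem {a : Qb} (ha : a ∉ A) :
    a ≠ 0 ∧ ∃ u : A, (u : Qb) = a⁻¹ ∧ ¬ IsUnit u := by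
  have ha0 : a ≠ 0 := by
    rintro rfl
    exact ha (zero_mem _)
  have hinv : a⁻¹ ∈ A := (A.mem_or_inv_mem a).resolve_left ha
  refine ⟨ha0, ⟨a⁻¹, hinv⟩, rfl, ?_⟩
  intro hu
  obtain ⟨w, hw⟩ := isUnit_iff_exists_inv.mp hu
  apply ha
  have h1 : (a⁻¹ : Qb) * (w : Qb) = 1 := by
    have := congrArg (Subtype.val) hw
    simpa using this
  have h2 : (w : Qb) = a := by
    rw [inv_mul_eq_iff_eq_mul₀ ha0, mul_one] at h1
    exact h1
  rw [← h2]
  exact w.2

omit [NeZero N] [NeZero M] hNM in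
/-- an element of valuation `1` is a unit of `A`. -/
theorem unit_data_of_valuation_eq_one {c : Qb} (hc : A.valuation c = 1) :
    ∃ u : A, (u : Qb) = c ∧ IsUnit u := by
  have hmem : c ∈ A := (A.valuation_le_one_iff c).mp hc.le
  exact ⟨⟨c, hmem⟩, rfl, (A.valuation_eq_one_iff ⟨c, hmem⟩).mpr hc⟩

set_option maxHeartbeats 800000 in
/-- `J⁻¹ - a⁻¹` is compatible with `J̃⁻¹` when `a⁻¹` is a non-unit of `A`. -/
theorem compat_inv_sub {p : ℕ} (hπ : ∀ u : A, π u = 0 ↔ ¬ IsUnit u)
    (hr : IsPlaceReductionAlong A π M r)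
    {J Jp : FF N} {Jt Jpt : Kap k N} (hJ : SameSeries π N J Jt)
    {xi x0 : Place Qb (FF N)} (hF : CuspOrds J Jp p xi x0)
    {Qi Q0 : Place k (Kap k N)} (hE : CuspOrds Jt Jpt p Qi Q0)
    {a : Qb} (ha : a ∉ A) :
    Compat r (J⁻¹ - algebraMap Qb (FF N) a⁻¹) Jt⁻¹ := by
  obtain ⟨ha0, u1, hu1, hu1n⟩ := inv_data_of_notMem ha
  have hu1r : π u1 = 0 := (hπ u1).mpr hu1n
  have hJ0 : J ≠ 0 := by
    rintro rfl
    have := hF.xi_J
    rw [Place.ord_zero] at this
    omega
  have hJt0 : Jt ≠ 0 := by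
    rintro rfl
    have := hE.xi_J
    rw [Place.ord_zero] at this
    omega
  -- `J⁻¹ - a⁻¹ = (1 - a⁻¹ J) / J`
  have hS : SameSeries π N (1 - algebraMap Qb (FF N) (u1 : Qb) * J)
      (1 - algebraMap k (Kap k N) (π u1) * Jt) :=
    (sameSeries_one π).sub π ((sameSeries_const π u1).mul π hJ)
  rw [hu1r, map_zero, zero_mul, sub_zero, hu1] at hS
  have hf1 : 1 - algebraMap Qb (FF N) a⁻¹ * J ≠ 0 := by
    intro h0
    have h1 : algebraMap Qb (FF N) a⁻¹ * J = 1 := (sub_eq_zero.mp h0).symm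
    have hc : algebraMap Qb (FF N) a⁻¹ ≠ 0 := by simpa using ha0
    have h2 := xi.ord_mul hc hJ0
    rw [h1, Place.ord_one, FF.ord_algebraMap, hF.xi_J] at h2
    omega
  have h := compat_div r hf1 hJ0 one_ne_zero hJt0 (compat_of_sameSeries π hr hS one_ne_zero)
    (compat_of_sameSeries π hr hJ hJt0)
  have e1 : (1 - algebraMap Qb (FF N) a⁻¹ * J) / J = J⁻¹ - algebraMap Qb (FF N) a⁻¹ := by
    field_simp
  rwa [e1, one_div] at h

set_option maxHeartbeats 800000 in
/-- `1 - c J / J_p ^ p` is compatible with `1 - c̄ J̃ / J̃_p ^ p` when `c` is a unit of `A`. -/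
theorem compat_one_sub_ratio {p : ℕ} (hp : 2 ≤ p) (hr : IsPlaceReductionAlong A π M r)
    {J Jp : FF N} {Jt Jpt : Kap k N}
    (hJ : SameSeries π N J Jt) (hJp : SameSeries π N Jp Jpt)
    {xi x0 : Place Qb (FF N)} (hF : CuspOrds J Jp p xi x0)
    {Qi Q0 : Place k (Kap k N)} (hE : CuspOrds Jt Jpt p Qi Q0)
    (uc : A) (huc0 : (uc : Qb) ≠ 0) (hucr : π uc ≠ 0) :
    Compat r (1 - algebraMap Qb (FF N) (uc : Qb) * (J / Jp ^ p))
      (1 - algebraMap k (Kap k N) (π uc) * (Jt / Jpt ^ p)) := by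
  have hP2 : (2 : ℤ) ≤ (p : ℤ) := by exact_mod_cast hp
  have hJ0 : J ≠ 0 := by
    rintro rfl
    have := hF.xi_J
    rw [Place.ord_zero] at this
    omega
  have hJp0 : Jp ≠ 0 := by
    rintro rfl
    have := hF.x0_Jp
    rw [Place.ord_zero] at this
    omega
  have hJt0 : Jt ≠ 0 := by
    rintro rfl
    have := hE.xi_J
    rw [Place.ord_zero] at this
    omega
  have hJpt0 : Jpt ≠ 0 := by
    rintro rfl
    have := hE.x0_Jp
    rw [Place.ord_zero] at this
    omega
  have hS : SameSeries π N (Jp ^ p - algebraMap Qb (FF N) (uc : Qb) * J)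
      (Jpt ^ p - algebraMap k (Kap k N) (π uc) * Jt) :=
    (hJp.pow π p).sub π ((sameSeries_const π uc).mul π hJ)
  have hC : algebraMap Qb (FF N) (uc : Qb) ≠ 0 := by simpa using huc0
  have hCb : algebraMap k (Kap k N) (π uc) ≠ 0 := by simpa using hucr
  have hJpp0 : Jp ^ p ≠ 0 := pow_ne_zero p hJp0
  have hJptp0 : Jpt ^ p ≠ 0 := pow_ne_zero p hJpt0
  have hf1 : Jp ^ p - algebraMap Qb (FF N) (uc : Qb) * J ≠ 0 := by
    intro h0
    have h2 := congrArg xi.ord (sub_eq_zero.mp h0)
    rw [FF.ord_pow, xi.ord_mul hC hJ0, FF.ord_algebraMap, hF.xi_Jp, hF.xi_J] at h2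
    nlinarith
  have hg1 : Jpt ^ p - algebraMap k (Kap k N) (π uc) * Jt ≠ 0 := by
    intro h0
    have h2 := congrArg Qi.ord (sub_eq_zero.mp h0)
    rw [FF.ord_pow, Qi.ord_mul hCb hJt0, FF.ord_algebraMap, hE.xi_Jp, hE.xi_J] at h2
    nlinarith
  have h := compat_div r hf1 hJpp0 hg1 hJptp0
    (compat_of_sameSeries π hr hS hg1) (compat_of_sameSeries π hr (hJp.pow π p) hJptp0)
  have e1 : (Jp ^ p - algebraMap Qb (FF N) (uc : Qb) * J) / Jp ^ p =
      1 - algebraMap Qb (FF N) (uc : Qb) * (J / Jp ^ p) := by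
    rw [sub_div, div_self hJpp0, mul_div_assoc]
  have e2 : (Jpt ^ p - algebraMap k (Kap k N) (π uc) * Jt) / Jpt ^ p =
      1 - algebraMap k (Kap k N) (π uc) * (Jt / Jpt ^ p) := by
    rw [sub_div, div_self hJptp0, mul_div_assoc]
  rwa [e1, e2] at h

set_option maxHeartbeats 800000 in
/-- **Points with `|J| > 1` and `|J_p|^p = |J|` are tube points** in the sense of `Measure54`
(`π` any ring homomorphism from `A` to a field whose kernel is the set of non-units). -/
theorem tubePt_of_values {p : ℕ} (hp : 2 ≤ p) (hπ : ∀ u : A, π u = 0 ↔ ¬ IsUnit u)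
    (hr : IsPlaceReductionAlong A π M r)
    {J Jp : FF N} {Jt Jpt : Kap k N}
    (hJ : SameSeries π N J Jt) (hJp : SameSeries π N Jp Jpt)
    {xi x0 : Place Qb (FF N)} (hF : CuspOrds J Jp p xi x0)
    {Qi Q0 : Place k (Kap k N)} (hE : CuspOrds Jt Jpt p Qi Q0)
    {x : Place Qb (FF N)} {a b : Qb} (ha : a ∉ A)
    (hab : A.valuation (b ^ p) = A.valuation a)
    (hxa : 0 < x.ord (J - algebraMap Qb (FF N) a))
    (hxb : 0 < x.ord (Jp - algebraMap Qb (FF N) b)) :
    TubePt r J Jp Jt Jpt p x := by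
  have ha0 : a ≠ 0 := by
    rintro rfl
    exact ha (zero_mem _)
  have hb0 : b ≠ 0 := by
    rintro rfl
    rw [zero_pow (by omega), map_zero] at hab
    exact ha0 ((map_eq_zero _).mp hab.symm)
  have hva : A.valuation a ≠ 0 := (map_ne_zero _).mpr ha0
  have hvc : A.valuation (b ^ p / a) = 1 := by
    rw [map_div₀, hab, div_self hva]
  obtain ⟨uc, huc, hucu⟩ := unit_data_of_valuation_eq_one hvc
  have hucr : π uc ≠ 0 := fun h => ((hπ uc).mp h) hucu
  have hc0 : b ^ p / a ≠ 0 := div_ne_zero (pow_ne_zero _ hb0) ha0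
  have h2 := compat_one_sub_ratio π hp hr hJ hJp hF hE uc (by rw [huc]; exact hc0) hucr
  rw [huc] at h2
  exact ⟨a, b, b ^ p / a, ha0, hb0, by field_simp, hxa, hxb,
    compat_inv_sub π hπ hr hJ hF hE ha, π uc, hucr, h2⟩

/-- The residue map of `A` has the non-units as kernel. -/
theorem residue_eq_zero_iff_not_isUnit (A : ValuationSubring Qb) (u : A) :
    IsLocalRing.residue ↥A u = 0 ↔ ¬ IsUnit u := by
  rw [IsLocalRing.residue_eq_zero_iff, IsLocalRing.mem_maximalIdeal, mem_nonunits_iff]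

end Tube

end Fermat.Agent.MAZ.Red.CompatInst54
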