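/-
Program MAZ (S15), chapter Red, X-INJ (helper49): `hconst` = "a function of `κ(N)` without poles is
constant", for every level `N` dividing a level `M` with `4 ∣ M` or `9 ∣ M` (`ℓ ∤ M`), where
`κ(N) = modularFunctionFieldFullC k N`, `k` the residue field of a valuation ring `A` of `ℚbar`
over `ℓ`.  Proof: pull the function back to `κ(M)`, where
`SpecialLHypBase99.exists_const_of_forall_mem_fullC_of_four_or_nine` applies.

Instance-agnostic: any `[Algebra κ(N) κ(M)]` with `[IsScalarTower k κ(N) κ(M)]`,
`[Algebra.IsIntegral κ(N) κ(M)]`.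
-/
import Mathlib
import Fermat.Agent.M1.Link.SpecialLHypBase99
import Fermat.Prelude.Def_AlgebraicCurve_DivisorPushPull
import Fermat.Agent.X0.FFDict

set_option autoImplicit false
set_option linter.style.haveILetI false
set_option linter.unusedSectionVars false

open AlgebraicCurve ModularCurve

noncomputable section

namespace Fermat.Agent.MAZ.Red.ConstFullC49

open Fermat.Agent.X0 Fermat.Agent.RED.Interface4 Fermat.Agent.M1.Link.SpecialLHypBase99

variable {N M : ℕ} [NeZero N] [NeZero M] (hM : 4 ∣ M ∨ 9 ∣ M)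
  (ℓ : ℕ) [Fact ℓ.Prime] (hℓM : ¬ ℓ ∣ M) (A : ValuationSubring Qbar) (hA : A.LiesOverPrime ℓ)
  [Algebra ↥(modularFunctionFieldFullC (IsLocalRing.ResidueField ↥A) N)
    ↥(modularFunctionFieldFullC (IsLocalRing.ResidueField ↥A) M)]
  [IsScalarTower (IsLocalRing.ResidueField ↥A)
    ↥(modularFunctionFieldFullC (IsLocalRing.ResidueField ↥A) N)
    ↥(modularFunctionFieldFullC (IsLocalRing.ResidueField ↥A) M)]
  [Algebra.IsIntegral ↥(modularFunctionFieldFullC (IsLocalRing.ResidueField ↥A) N)
    ↥(modularFunctionFieldFullC (IsLocalRing.ResidueField ↥A) M)]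

include hM hℓM hA

/-- **`hconst`**: a function of `κ(N)` without poles is constant. -/
theorem exists_const_of_forall_ord_nonneg
    (f : ↥(modularFunctionFieldFullC (IsLocalRing.ResidueField ↥A) N))
    (h : ∀ Q : Place (IsLocalRing.ResidueField ↥A)
      ↥(modularFunctionFieldFullC (IsLocalRing.ResidueField ↥A) N), 0 ≤ Q.ord f) :
    ∃ c : IsLocalRing.ResidueField ↥A,
      f = algebraMap (IsLocalRing.ResidueField ↥A)
        ↥(modularFunctionFieldFullC (IsLocalRing.ResidueField ↥A) N) c := by
  have hmem : ∀ Q' : Place (IsLocalRing.ResidueField ↥A)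
      ↥(modularFunctionFieldFullC (IsLocalRing.ResidueField ↥A) M),
      algebraMap ↥(modularFunctionFieldFullC (IsLocalRing.ResidueField ↥A) N)
        ↥(modularFunctionFieldFullC (IsLocalRing.ResidueField ↥A) M) f ∈ Q'.toValuationSubring := by
    intro Q'
    apply FF.mem_of_ord_nonneg
    rw [Q'.ord_restrict f]
    exact mul_nonneg (Int.natCast_nonneg _) (h _)
  obtain ⟨c, hc⟩ := exists_const_of_forall_mem_fullC_of_four_or_nine hM ℓ hℓM A hA hmem
  refine ⟨c, ?_⟩
  apply (algebraMap ↥(modularFunctionFieldFullC (IsLocalRing.ResidueField ↥A) N)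
    ↥(modularFunctionFieldFullC (IsLocalRing.ResidueField ↥A) M)).injective
  rw [hc]
  exact IsScalarTower.algebraMap_apply _ _ _ c

/-- The same for a function without zeros and poles (the shape produced by
`Measure54.ord_eq_zero_of_tube`). -/
theorem exists_const_of_forall_ord_eq_zero
    (f : ↥(modularFunctionFieldFullC (IsLocalRing.ResidueField ↥A) N))
    (h : ∀ Q : Place (IsLocalRing.ResidueField ↥A)
      ↥(modularFunctionFieldFullC (IsLocalRing.ResidueField ↥A) N), Q.ord f = 0) :
    ∃ c : IsLocalRing.ResidueField ↥A,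
      f = algebraMap (IsLocalRing.ResidueField ↥A)
        ↥(modularFunctionFieldFullC (IsLocalRing.ResidueField ↥A) N) c :=
  exists_const_of_forall_ord_nonneg hM ℓ hℓM A hA f (fun Q => (h Q).ge)

end Fermat.Agent.MAZ.Red.ConstFullC49
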