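/-
Program MAZ (S15), chapter Red, helper62: brick CB-CUSP (for helper54's X-INJ).

THE CUSP `0` OF THE SPECIAL FIBRE AT LEVEL `p`: for a field `k` of characteristic `ℓ ≠ p` the
function field `κ(p) = k(j̃, j̃_p) ⊆ k((q))` has a place `Q0` with `ord j̃ = -p`, `ord j̃_p = -1`.

There is no Fricke involution in characteristic `ℓ` in the library; the place is cut out by the
SWAPPED `q`-expansion embedding `σ : κ(p) → k((q))`, `j̃ ↦ j̃_p`, `j̃_p ↦ j̃`, which exists because
`Φ_p(X, j̃)` is the minimal polynomial of `j̃_p` over `k(j̃)` (degree `p + 1 = [κ(p) : k(j̃)]`) and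
`Φ_p(j̃, j̃_p) = 0`.

* `exists_swap_embedding` : the abstract field-theoretic statement;
* `exists_cuspZeroC`      : the place.
-/
import Mathlib
import Fermat.Prelude.Def_ModularCurve_X0ModL
import Fermat.Agent.RED.PUR.DegBaseChange25
import Fermat.Agent.MAZ.Moduli.ModPolyShape41
import Fermat.Agent.MAZ.Moduli.NewtonPhi41
import Fermat.Agent.M1.Link.InfPlace39
import Fermat.Agent.M1.Link.Faber39
import Fermat.Agent.IG.AN.CosetFamily14
import Fermat.Agent.IG.AN.ModPoly3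
import Fermat.Agent.IG.PR.ThetaV1

set_option autoImplicit false
set_option linter.unusedSectionVars false

open AlgebraicCurve ModularCurve Polynomial IntermediateField

noncomputable section

namespace Fermat.Agent.MAZ.Red.CuspZeroC62

open Fermat.Agent.MAZ.Moduli.NewtonPhi41 Fermat.Agent.MAZ.Moduli.ModPolyShape41

/-! ### The abstract swap embedding -/

section Abstract

variable {k L : Type*} [Field k] [Field L] [Algebra k L]

theorem polyX_map {L₁ L₂ : Type*} [Field L₁] [Field L₂] (g : L₁ →+* L₂) (Φ : ℤ[X][X]) (y : L₁) :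
    (polyX Φ y).map g = polyX Φ (g y) := by
  rw [polyX, polyX, Polynomial.map_map]
  congr 1
  apply Polynomial.ringHom_ext
  · intro a
    simp
  · simp

/-- **Swap embedding.** If `Φ(X, x)` is the minimal polynomial of `y` over `k(x)` (degree count),
`Φ(x, y) = 0`, and some `k`-endomorphism of `L` sends `x` to `y`, then there is a `k`-embedding of
`k(x, y)` into `L` exchanging `x` and `y`. -/
theorem exists_swap_embedding (x y : L) (τ : L →ₐ[k] L) (hτ : τ x = y)
    (Φ : ℤ[X][X]) {m : ℕ} (hΦ : Shape m Φ) (h1 : ev Φ y x = 0) (h2 : ev Φ x y = 0)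
    (hdeg : Module.finrank k⟮x⟯ (k⟮x⟯⟮y⟯) = m + 1) :
    ∃ σ : ↥(adjoin k ({x} ∪ {y} : Set L)) →+* L,
      (∀ c : k, σ (algebraMap k _ c) = algebraMap k L c) ∧
      (∀ hx, σ ⟨x, hx⟩ = y) ∧ (∀ hy, σ ⟨y, hy⟩ = x) := by
  let xg : k⟮x⟯ := AdjoinSimple.gen k x
  let P : (k⟮x⟯)[X] := polyX Φ xg
  have hPmonic : P.Monic := polyX_monic hΦ xg
  have hPdeg : P.natDegree = m + 1 := polyX_natDegree hΦ xg
  have hxg : algebraMap k⟮x⟯ L xg = x := AdjoinSimple.algebraMap_gen k x
  -- `P(y) = 0`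
  have hPy : Polynomial.aeval y P = 0 := by
    rw [Polynomial.aeval_def, Polynomial.eval₂_eq_eval_map, polyX_map, hxg, eval_polyX]
    exact h1
  have hint : IsIntegral k⟮x⟯ y := ⟨P, hPmonic, hPy⟩
  -- `P` is the minimal polynomial
  have hmin : minpoly k⟮x⟯ y = P := by
    have hdvd : minpoly k⟮x⟯ y ∣ P := minpoly.dvd k⟮x⟯ y hPy
    have hd : (minpoly k⟮x⟯ y).natDegree = m + 1 := by
      rw [← hdeg, IntermediateField.adjoin.finrank hint]
    exact (Polynomial.eq_of_monic_of_dvd_of_natDegree_le (minpoly.monic hint) hPmonic hdvd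
      (by rw [hd, hPdeg])).symm
  -- the embedding of `k(x)`
  let σ₀ : k⟮x⟯ →+* L := (τ : L →+* L).comp (algebraMap k⟮x⟯ L)
  have hσ₀x : σ₀ xg = y := by
    show τ (algebraMap k⟮x⟯ L xg) = y
    rw [hxg, hτ]
  have hroot : (minpoly k⟮x⟯ y).eval₂ σ₀ x = 0 := by
    rw [hmin, Polynomial.eval₂_eq_eval_map, polyX_map, hσ₀x, eval_polyX]
    exact h2
  let g : AdjoinRoot (minpoly k⟮x⟯ y) →+* L := AdjoinRoot.lift σ₀ x hroot
  let e : AdjoinRoot (minpoly k⟮x⟯ y) ≃ₐ[k⟮x⟯] (k⟮x⟯)⟮y⟯ := adjoinRootEquivAdjoin k⟮x⟯ hint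
  -- the inclusion of `k(x, y)` into `k(x)(y)`
  have hEq : ((k⟮x⟯)⟮y⟯).restrictScalars k = adjoin k ({x} ∪ {y} : Set L) :=
    adjoin_adjoin_left k {x} {y}
  have hmem : ∀ z : L, z ∈ adjoin k ({x} ∪ {y} : Set L) → z ∈ (k⟮x⟯)⟮y⟯ := by
    intro z hz
    rw [← hEq] at hz
    exact hz
  let incl : ↥(adjoin k ({x} ∪ {y} : Set L)) →+* ↥((k⟮x⟯)⟮y⟯) :=
    { toFun := fun z => ⟨z.1, hmem z.1 z.2⟩
      map_one' := rfl
      map_mul' := fun _ _ => rfl
      map_zero' := rfl
      map_add' := fun _ _ => rfl }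
  let σ : ↥(adjoin k ({x} ∪ {y} : Set L)) →+* L := g.comp ((e.symm : _ →+* _).comp incl)
  -- `σ` on `k(x)`
  have hσK : ∀ (a : k⟮x⟯) (ha : (a : L) ∈ adjoin k ({x} ∪ {y} : Set L)),
      σ ⟨(a : L), ha⟩ = σ₀ a := by
    intro a ha
    have h3 : incl ⟨(a : L), ha⟩ = algebraMap k⟮x⟯ ((k⟮x⟯)⟮y⟯) a := rfl
    show g (e.symm (incl ⟨(a : L), ha⟩)) = σ₀ a
    rw [h3, AlgEquiv.commutes, AdjoinRoot.algebraMap_eq, AdjoinRoot.lift_of]
  refine ⟨σ, ?_, ?_, ?_⟩
  · intro c
    have h4 := hσK (algebraMap k k⟮x⟯ c) (IntermediateField.algebraMap_mem _ c)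
    have h5 : σ₀ (algebraMap k k⟮x⟯ c) = algebraMap k L c := by
      show τ (algebraMap k⟮x⟯ L (algebraMap k k⟮x⟯ c)) = algebraMap k L c
      rw [← IsScalarTower.algebraMap_apply, AlgHom.commutes]
    rw [← h5, ← h4]
    rfl
  · intro hx
    have h4 := hσK xg hx
    exact h4.trans hσ₀x
  · intro hy
    have h3 : incl ⟨y, hy⟩ = AdjoinSimple.gen k⟮x⟯ y := rfl
    show g (e.symm (incl ⟨y, hy⟩)) = x
    rw [h3, adjoinRootEquivAdjoin_symm_apply_gen, AdjoinRoot.lift_root]

end Abstract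

/-! ### The cusp `0` of the special fibre -/

section Cusp

variable (p ℓ : ℕ) [hpF : Fact p.Prime] [hℓF : Fact ℓ.Prime] (k : Type) [Field k] [CharP k ℓ]

/-- `κ(p) = k(j̃, j̃_p)`. -/
theorem fullC_eq_adjoin_pair :
    modularFunctionFieldFullC k p =
      adjoin k ({jqModC k} ∪ {qExpand k p (jqModC k)} : Set (LaurentSeries k)) := by
  rw [modularFunctionFieldFullC]
  congr 1
  ext z
  constructor
  · rintro ⟨d, hd, hdvd, rfl⟩
    rcases (Nat.dvd_prime hpF.out).mp hdvd with rfl | rfl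
    · left
      rw [Set.mem_singleton_iff, qExpand_one_apply]
    · right
      rfl
  · rintro (h | h)
    · rw [Set.mem_singleton_iff] at h
      subst h
      exact ⟨1, inferInstance, one_dvd p, (qExpand_one_apply _).symm⟩
    · rw [Set.mem_singleton_iff] at h
      subst h
      exact ⟨p, inferInstance, dvd_rfl, rfl⟩

/-- `[k(j̃)(j̃_p) : k(j̃)] = p + 1`. -/
theorem finrank_adjoin_jp (hℓp : ℓ ≠ p) :
    Module.finrank k⟮jqModC k⟯ ((k⟮jqModC k⟯)⟮qExpand k p (jqModC k)⟯) = p + 1 := by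
  have hℓp' : ¬ ℓ ∣ p := fun h =>
    hℓp ((Nat.prime_dvd_prime_iff_eq hℓF.out hpF.out).mp h)
  have hle : k⟮jqModC k⟯ ≤ modularFunctionFieldFullC k p := by
    rw [adjoin_simple_le_iff]
    exact jqModC_mem_full k p
  have h1 := Fermat.Agent.RED.PUR.DegBaseChange25.relfinrank_fullC_eq_psi_of_charP ℓ k p hℓp'
  rw [IntermediateField.relfinrank_eq_finrank_of_le hle,
    Fermat.Agent.IG.AN.CosetFamily14.dedekindPsi_prime hpF.out] at h1
  have h2 : (k⟮jqModC k⟯)⟮qExpand k p (jqModC k)⟯ = extendScalars hle := by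
    apply IntermediateField.restrictScalars_injective k
    rw [extendScalars_restrictScalars, fullC_eq_adjoin_pair]
    exact adjoin_adjoin_left k {jqModC k} {qExpand k p (jqModC k)}
  rw [h2]
  exact h1

/-- **The swapped `q`-expansion embedding of `κ(p)` and its place**: `σ j̃ = j̃_p`, `σ j̃_p = j̃`,
`σ` is the identity on constants, and `Q0.ord f = (σ f).order`. -/
theorem exists_cuspZeroC_emb (hℓp : ℓ ≠ p) :
    ∃ (σ : ↥(modularFunctionFieldFullC k p) →+* LaurentSeries k)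
      (Q0 : Place k ↥(modularFunctionFieldFullC k p)),
      (∀ c : k, σ (algebraMap k ↥(modularFunctionFieldFullC k p) c) = HahnSeries.C c) ∧
      σ ⟨jqModC k, jqModC_mem_full k p⟩ = qExpand k p (jqModC k) ∧
      σ ⟨qExpand k p (jqModC k), jqModCd_mem_full k p dvd_rfl⟩ = jqModC k ∧
      ∀ f : ↥(modularFunctionFieldFullC k p), f ≠ 0 → Q0.ord f = (σ f).order := by
  have hp : p.Prime := hpF.out
  -- the two modular relations in `k((q))`
  have h1 : ev (modPoly p) (qExpand k p (jqModC k)) (jqModC k) = 0 := modPoly_eval_ring k hp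
  have h2 : ev (modPoly p) (jqModC k) (qExpand k p (jqModC k)) = 0 := modPoly_eval_ring' k hp
  obtain ⟨σ', hσc, hσx, hσy⟩ := exists_swap_embedding (k := k) (jqModC k)
    (qExpand k p (jqModC k)) (qExpandAlgHomC k p) (qExpandAlgHomC_apply k p _) (modPoly p)
    (modPoly_shape hp) h1 h2 (finrank_adjoin_jp p ℓ k hℓp)
  -- transport to `κ(p)`
  have hE := fullC_eq_adjoin_pair p k
  have hmem : ∀ z : LaurentSeries k, z ∈ modularFunctionFieldFullC k p →
      z ∈ adjoin k ({jqModC k} ∪ {qExpand k p (jqModC k)} : Set (LaurentSeries k)) := by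
    intro z hz
    rw [← hE]
    exact hz
  let incl : ↥(modularFunctionFieldFullC k p) →+*
      ↥(adjoin k ({jqModC k} ∪ {qExpand k p (jqModC k)} : Set (LaurentSeries k))) :=
    { toFun := fun z => ⟨z.1, hmem z.1 z.2⟩
      map_one' := rfl
      map_mul' := fun _ _ => rfl
      map_zero' := rfl
      map_add' := fun _ _ => rfl }
  let σ : ↥(modularFunctionFieldFullC k p) →+* LaurentSeries k := σ'.comp incl
  have hσ : ∀ c : k, σ (algebraMap k ↥(modularFunctionFieldFullC k p) c) = HahnSeries.C c := by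
    intro c
    show σ' (incl (algebraMap k _ c)) = _
    have : incl (algebraMap k ↥(modularFunctionFieldFullC k p) c) = algebraMap k _ c := rfl
    rw [this, hσc]
    exact Fermat.Agent.M1.Link.Faber39.algebraMap_eq_C c
  have hσJ : σ ⟨jqModC k, jqModC_mem_full k p⟩ = qExpand k p (jqModC k) := hσx _
  have hσJp : σ ⟨qExpand k p (jqModC k), jqModCd_mem_full k p dvd_rfl⟩ = jqModC k := hσy _
  have hordJ : (jqModC k).order = -1 := Fermat.Agent.IG.AN.ModPoly3.order_jqModC k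
  have hnt : ∃ f, f ≠ 0 ∧ (σ f).order ≠ 0 := by
    refine ⟨⟨qExpand k p (jqModC k), jqModCd_mem_full k p dvd_rfl⟩, ?_, ?_⟩
    · intro h0
      have := congrArg σ h0
      rw [hσJp, map_zero] at this
      rw [this, HahnSeries.order_zero] at hordJ
      omega
    · rw [hσJp, hordJ]
      omega
  refine ⟨σ, Fermat.Agent.X0.LaurentPlace.embPlace σ hσ hnt, hσ, hσJ, hσJp, ?_⟩
  intro f hf
  exact Fermat.Agent.M1.Link.InfPlace39.embPlace_ord_eq σ hσ hnt
    (x := ⟨qExpand k p (jqModC k), jqModCd_mem_full k p dvd_rfl⟩) (by rw [hσJp, hordJ]) hf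

/-- **The cusp `0` of the special fibre at level `p`.** -/
theorem exists_cuspZeroC (hℓp : ℓ ≠ p) :
    ∃ Q0 : Place k ↥(modularFunctionFieldFullC k p),
      Q0.ord (⟨jqModC k, jqModC_mem_full k p⟩ : ↥(modularFunctionFieldFullC k p)) = -(p : ℤ) ∧
      Q0.ord (⟨qExpand k p (jqModC k), jqModCd_mem_full k p dvd_rfl⟩ :
        ↥(modularFunctionFieldFullC k p)) = -1 := by
  obtain ⟨σ, Q0, -, hσJ, hσJp, hord⟩ := exists_cuspZeroC_emb p ℓ k hℓp
  have hordJ : (jqModC k).order = -1 := Fermat.Agent.IG.AN.ModPoly3.order_jqModC k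
  have hJ0 : jqModC k ≠ 0 := by
    intro h0
    rw [h0, HahnSeries.order_zero] at hordJ
    omega
  refine ⟨Q0, ?_, ?_⟩
  · have hne : (⟨jqModC k, jqModC_mem_full k p⟩ : ↥(modularFunctionFieldFullC k p)) ≠ 0 := by
      intro h0
      exact hJ0 (congrArg Subtype.val h0)
    rw [hord _ hne, hσJ, Fermat.Agent.IG.PR.ThetaV1.order_qExpand, hordJ]
    ring
  · have hne : (⟨qExpand k p (jqModC k), jqModCd_mem_full k p dvd_rfl⟩ :
        ↥(modularFunctionFieldFullC k p)) ≠ 0 := by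
      intro h0
      have := congrArg σ h0
      rw [hσJp, map_zero] at this
      exact hJ0 this
    rw [hord _ hne, hσJp, hordJ]

end Cusp

end Fermat.Agent.MAZ.Red.CuspZeroC62
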