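/-
Program MAZ (S15), chapter Red, helper54: X-INJ, THE ENDGAME (`TubeInj54.EndStmt` for the residue
map of a place `A` of `ℚbar` over `ℓ ∤ p`).

If `(f) = m · D` with `ℓ ∤ m` and every Gauss fraction `f = c · a / b` of `f` reduces to a constant
(`ā = c₀ · b̄`), then `D` is principal: replace `b` by `u b` (`u` a unit lifting `c₀`), apply the core
lemma `S18Exports4.clBar` to the pair `(a, u b)` (same reduction) to get `a = s ^ m · u b`, hence
`f = (c u) s ^ m = (c₁ s) ^ m` and `D = (c₁ s)`.

The Gauss fraction `exists_gauss_fraction54` is a copy of `M1/Link/HeckeDlog88.exists_gauss_fraction_bar`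
(helper88), repeated under a fresh name to avoid importing that file's closure.
-/
import Mathlib
import Fermat.Agent.ES.RED.GaussUnit25
import Fermat.Agent.RED.PUR.DegBaseChange25
import Fermat.Agent.RED.S18Exports4
import Fermat.Agent.X0.FFDict

set_option autoImplicit false
set_option linter.unusedSectionVars false
set_option linter.style.haveILetI false

open AlgebraicCurve ModularCurve HahnSeries

noncomputable section

namespace Fermat.Agent.MAZ.Red.Endgame54

open Fermat.Agent.X0

section Frac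

open Fermat.Agent.RED.Interface4 Fermat.Agent.RED.DESC Fermat.Agent.RED.DESC.NumberFieldDVR27
open Fermat.Agent.RED.PUR.GaussGen8 Fermat.Agent.RED.PUR.KtGauss8
open Fermat.Agent.RED.PUR.GaussBridge10 Fermat.Agent.RED.PUR.GaussInst25
open Fermat.Agent.RED.PUR Fermat.Agent.IG.PR
open Fermat.Agent.ES.RED.GaussUnit25

/-- Every nonzero function of `FF M` is a constant times a quotient of two functions of `FF M` with
`A`-integral `q`-expansions of NONZERO reduction (copy of `HeckeDlog88.exists_gauss_fraction_bar`). -/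
theorem exists_gauss_fraction54 {ℓ : ℕ} (hℓ : ℓ.Prime) (A : ValuationSubring Qbar)
    (hA : A.LiesOverPrime ℓ) (M : ℕ) [NeZero M]
    (f : ↥(laurentBaseChange Qbar (modularFunctionFieldFull M))) (hf0 : f ≠ 0) :
    ∃ (c : Qbar) (a b : LaurentSeries ↥A), c ≠ 0 ∧
      coeffMap A.subtype a ∈ laurentBaseChange Qbar (modularFunctionFieldFull M) ∧
      coeffMap A.subtype b ∈ laurentBaseChange Qbar (modularFunctionFieldFull M) ∧
      coeffMap (IsLocalRing.residue ↥A) a ≠ 0 ∧ coeffMap (IsLocalRing.residue ↥A) b ≠ 0 ∧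
      (f : LaurentSeries Qbar) * coeffMap A.subtype b =
        HahnSeries.C c * coeffMap A.subtype a := by
  haveI := isAlgebraic_Qbar
  obtain ⟨K, -, hfin, x', hx', hx'f⟩ :=
    CoeffDescent1.exists_finite_descent (L := Qbar) (F₀ := modularFunctionFieldFull M) ⊥ f.2
  haveI := hfin
  haveI : IsDiscreteValuationRing ↥(AK A K) := isDiscreteValuationRing_AK A K hℓ.ne_zero hA
  obtain ⟨π, hπ⟩ := IsDiscreteValuationRing.exists_irreducible ↥(AK A K)
  have hu := isUnif_of_irreducible (AK A K) hπ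
  have hx'C : x' ∈ modularFunctionFieldFullC ↥K M := by
    rw [← DegBaseChange25.laurentBaseChange_full_eq]; exact hx'
  have hx'0 : x' ≠ 0 := by
    rintro rfl
    rw [map_zero] at hx'f
    exact hf0 (Subtype.ext hx'f.symm)
  obtain ⟨c, a, b, hc0, haE, hbE, hared, hbred, hrel⟩ := exists_integral_fraction hu M hx'C hx'0
  have hmemQ : ∀ z : LaurentSeries ↥(AK A K), embK (AK A K) z ∈ modularFunctionFieldFullC ↥K M →
      coeffMap A.subtype (coeffMap (incl A K) z) ∈
        laurentBaseChange Qbar (modularFunctionFieldFull M) := by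
    intro z hz
    rw [coeffMap_subtype_incl]
    refine CoeffDescent1.coeffMap_mem_laurentBaseChange_of_algHom (algebraMap K Qbar)
      (modularFunctionFieldFull M) ?_
    rw [DegBaseChange25.laurentBaseChange_full_eq]; exact hz
  have hred : ∀ z : LaurentSeries ↥(AK A K), redL (AK A K) z ≠ 0 →
      coeffMap (IsLocalRing.residue ↥A) (coeffMap (incl A K) z) ≠ 0 := by
    intro z hz h
    rw [coeffMap_residue_incl] at h
    apply hz
    exact CoeffDescent1.coeffMap_injective_of_injective (resMap A K) (resMap_injective A K)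
      (h.trans (map_zero _).symm)
  refine ⟨algebraMap K Qbar c, coeffMap (incl A K) a, coeffMap (incl A K) b, ?_, hmemQ a haE,
    hmemQ b hbE, hred a hared, hred b hbred, ?_⟩
  · rw [Ne, map_eq_zero]; exact hc0
  · rw [coeffMap_subtype_incl, coeffMap_subtype_incl, ← hx'f, ← map_mul, hrel, map_mul,
      GaussGen8.coeffMap_C]

end Frac

section Endgame

open Fermat.Agent.RED.Interface4

/-- `coeffMap g (C u * b) = C (g u) * coeffMap g b`. -/
theorem coeffMap_C_mul {R S : Type*} [CommRing R] [CommRing S] (g : R →+* S) (u : R)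
    (b : LaurentSeries R) :
    coeffMap g (HahnSeries.C u * b) = HahnSeries.C (g u) * coeffMap g b := by
  rw [map_mul, Fermat.Agent.RED.PUR.GaussGen8.coeffMap_C]

/-- `C c` as the image of the constant `c` in `FF N`. -/
theorem coe_algebraMap_FF54 {N : ℕ} [NeZero N] (c : Qbar) :
    ((algebraMap Qbar (FF N) c : FF N) : LaurentSeries Qbar) = HahnSeries.C c := by
  show algebraMap Qbar (LaurentSeries Qbar) c = _
  rw [algebraMap_laurentSeries_eq_single]
  rfl

/-- **The endgame of X-INJ.** -/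
theorem isPrincipal_of_gauss_const {p ℓ : ℕ} [NeZero p] [Fact ℓ.Prime] (hℓp : ¬ ℓ ∣ p)
    (A : ValuationSubring Qbar) (hA : A.LiesOverPrime ℓ) (D : Divisor Qbar (FF p)) (m : ℕ)
    (hm : ¬ ℓ ∣ m) (f : FF p) (hf0 : f ≠ 0)
    (hf : ∀ v : Place Qbar (FF p), v.ord f = (m : ℤ) * D v)
    (H : ∀ a b : LaurentSeries ↥A, coeffMap A.subtype a ∈ Fbar p →
      coeffMap A.subtype b ∈ Fbar p →
      coeffMap (IsLocalRing.residue ↥A) a ≠ 0 → coeffMap (IsLocalRing.residue ↥A) b ≠ 0 →
      (∃ c : Qbar, c ≠ 0 ∧ (f : LaurentSeries Qbar) * coeffMap A.subtype b =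
        HahnSeries.C c * coeffMap A.subtype a) →
      ∃ c₀ : IsLocalRing.ResidueField ↥A, c₀ ≠ 0 ∧
        coeffMap (IsLocalRing.residue ↥A) a =
          HahnSeries.C c₀ * coeffMap (IsLocalRing.residue ↥A) b) :
    ∃ s : FF p, s ≠ 0 ∧ ∀ v : Place Qbar (FF p), D v = v.ord s := by
  have hℓ : ℓ.Prime := Fact.out
  have hm0 : m ≠ 0 := by
    rintro rfl
    exact hm (dvd_zero ℓ)
  obtain ⟨c, a, b, hc0, ha, hb, hared, hbred, hrel⟩ := exists_gauss_fraction54 hℓ A hA p f hf0
  obtain ⟨c₀, hc₀0, hc₀⟩ := H a b ha hb hared hbred ⟨c, hc0, hrel⟩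
  -- lift `c₀` to a unit `u` of `A`
  obtain ⟨u, hu⟩ := IsLocalRing.residue_surjective (R := ↥A) c₀
  have hu0 : (u : Qbar) ≠ 0 := by
    intro h0
    have : u = 0 := Subtype.ext h0
    rw [this, map_zero] at hu
    exact hc₀0 hu.symm
  -- the new denominator `b' = u b`
  set b' : LaurentSeries ↥A := HahnSeries.C u * b with hb'
  have hb'Q : coeffMap A.subtype b' = HahnSeries.C (u : Qbar) * coeffMap A.subtype b := by
    rw [hb', coeffMap_C_mul]
    rfl
  have hb'mem : coeffMap A.subtype b' ∈ Fbar p := by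
    rw [hb'Q]
    have h1 : HahnSeries.C (u : Qbar) ∈ Fbar p := by
      have := (algebraMap Qbar (FF p) (u : Qbar)).2
      rwa [coe_algebraMap_FF54] at this
    exact mul_mem h1 hb
  have hb'red : coeffMap (IsLocalRing.residue ↥A) a = coeffMap (IsLocalRing.residue ↥A) b' := by
    rw [hb', coeffMap_C_mul, hu, hc₀]
  -- the four elements of `FF p`
  set P : FF p := ⟨coeffMap A.subtype a, ha⟩ with hP
  set Qf : FF p := ⟨coeffMap A.subtype b, hb⟩ with hQf
  set Q' : FF p := ⟨coeffMap A.subtype b', hb'mem⟩ with hQ'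
  have hQ'eq : Q' = algebraMap Qbar (FF p) (u : Qbar) * Qf := by
    apply Subtype.ext
    show coeffMap A.subtype b' = ((algebraMap Qbar (FF p) (u : Qbar) : FF p) : LaurentSeries Qbar) *
      coeffMap A.subtype b
    rw [hb'Q, coe_algebraMap_FF54]
  have hrelF : f * Qf = algebraMap Qbar (FF p) c * P := by
    apply Subtype.ext
    show (f : LaurentSeries Qbar) * coeffMap A.subtype b =
      ((algebraMap Qbar (FF p) c : FF p) : LaurentSeries Qbar) * coeffMap A.subtype a
    rw [hrel, coe_algebraMap_FF54]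
  have hP0 : P ≠ 0 := by
    intro h
    apply hared
    have h1 : coeffMap A.subtype a = 0 := congrArg Subtype.val h
    have h2 : a = 0 := by
      apply Fermat.Agent.RED.DESC.CoeffDescent1.coeffMap_injective_of_injective A.subtype
        A.subtype_injective
      rw [h1, map_zero]
    rw [h2, map_zero]
  have hQ0 : Qf ≠ 0 := by
    intro h
    apply hbred
    have h1 : coeffMap A.subtype b = 0 := congrArg Subtype.val h
    have h2 : b = 0 := by
      apply Fermat.Agent.RED.DESC.CoeffDescent1.coeffMap_injective_of_injective A.subtype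
        A.subtype_injective
      rw [h1, map_zero]
    rw [h2, map_zero]
  have hC0 : algebraMap Qbar (FF p) c ≠ 0 := by simpa using hc0
  have hU0 : algebraMap Qbar (FF p) (u : Qbar) ≠ 0 := by simpa using hu0
  -- the core lemma
  obtain ⟨s, hs⟩ := Fermat.Agent.RED.S18Exports4.clBar p ℓ hℓp A hA a b' ha hb'mem hb'red hared m hm
    (by
      intro v
      show (m : ℤ) ∣ v.ord P - v.ord Q'
      have h1 := congrArg v.ord hrelF
      rw [v.ord_mul hf0 hQ0, v.ord_mul hC0 hP0, FF.ord_algebraMap, zero_add] at h1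
      rw [hQ'eq, v.ord_mul hU0 hQ0, FF.ord_algebraMap, zero_add]
      exact ⟨D v, by rw [← hf v]; omega⟩)
  have hs' : s ^ m * Q' = P := hs
  have hs0 : s ≠ 0 := by
    rintro rfl
    rw [zero_pow hm0, zero_mul] at hs'
    exact hP0 hs'.symm
  -- `f = (c u) s ^ m`
  have hf_eq : f = algebraMap Qbar (FF p) (c * u) * s ^ m := by
    have h1 : f * Qf = (algebraMap Qbar (FF p) (c * u) * s ^ m) * Qf := by
      rw [hrelF, ← hs', hQ'eq, map_mul]
      ring
    exact mul_right_cancel₀ hQ0 h1
  -- an `m`-th root of `c u`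
  obtain ⟨c₁, hc₁⟩ := IsAlgClosed.exists_pow_nat_eq (c * (u : Qbar)) (Nat.pos_of_ne_zero hm0)
  have hc₁0 : c₁ ≠ 0 := by
    rintro rfl
    rw [zero_pow hm0] at hc₁
    exact mul_ne_zero hc0 hu0 hc₁.symm
  have hC₁0 : algebraMap Qbar (FF p) c₁ ≠ 0 := by simpa using hc₁0
  refine ⟨algebraMap Qbar (FF p) c₁ * s, mul_ne_zero hC₁0 hs0, fun v => ?_⟩
  have h1 : f = (algebraMap Qbar (FF p) c₁ * s) ^ m := by
    rw [hf_eq, mul_pow, ← map_pow, hc₁]
  have h2 := hf v
  rw [h1, FF.ord_pow] at h2
  have hm' : (m : ℤ) ≠ 0 := by exact_mod_cast hm0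
  exact (mul_left_cancel₀ hm' h2).symm

end Endgame

end Fermat.Agent.MAZ.Red.Endgame54
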