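/-
Program MAZ (S15), chapter Red, brick (F) = F-SIDE of X-INJ (helper49; assignment #2053 of helper54):
the characteristic-zero inputs of `Measure54.CuspSetup` for the tower `FF N ⊆ FF M` over `ℚbar`.

* (F3) `sum_ramificationIndex_bar` : `∑_{x' | x} e(x' | x) = [FF M : FF N]`  (= `hdF`);
* (F4) `finrank_bar` : `[FF M : FF N] · ψ(N) = ψ(M)`, and `finrank_bar_eq_fullC` :
  `[FF M : FF N] = [κ(M) : κ(N)]` for `char k = ℓ ∤ M`  (`d_F = d_E`);
* (F1) `cuspOrds_bar` : `Measure54.CuspOrds (jF p) (jpF p) p (cuspInf p) cZ`;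
* (F2) `ord_jF_nonneg`, `ord_jpF_nonneg` : `j`, `j_p` have no poles outside the two cusps.

All statements about the tower are instance-agnostic: any `[Algebra (FF N) (FF M)]` whose
`algebraMap` is the inclusion inside `ℚbar((q))` (`hcoe`).
-/
import Mathlib
import Fermat.Agent.MAZ.Spec.XSpec62
import Fermat.Agent.MAZ.Cusp.CuspPlaces55
import Fermat.Agent.MAZ.Cusp.CuspPkg55
import Fermat.Agent.MAZ.Moduli.ModPolyFF41
import Fermat.Agent.ES.HECKE.LevelPullback12
import Fermat.Agent.ES.HECKE.FundIdentity19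
import Fermat.Agent.RED.PUR.DegBaseChange25
import Fermat.Agent.RED.LVL.LevelDegree17
import Fermat.Agent.RED.TOP.FbarFacts20
import Fermat.Agent.MAZ.Red.Measure54
import Fermat.Agent.MAZ.Red.FundSep49

set_option autoImplicit false
set_option linter.style.haveILetI false
set_option linter.unusedSectionVars false

open AlgebraicCurve ModularCurve IntermediateField

noncomputable section

namespace Fermat.Agent.MAZ.Red.FSide49

open Fermat.Agent.X0 Fermat.Agent.X0.FF Fermat.Agent.MAZ.Spec.XSpec62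

/-! ### Generic: `finrank` of an abstract algebra structure between two intermediate fields -/

section Generic

variable {K Ω : Type*} [Field K] [Field Ω] [Algebra K Ω] {E E' : IntermediateField K Ω}
  [Algebra ↥E ↥E'] (hcoe : ∀ x : ↥E, ((algebraMap ↥E ↥E' x : ↥E') : Ω) = (x : Ω))

include hcoe

/-- the comparison with `extendScalars`. -/
def equivExt (hle : E ≤ E') : ↥E' ≃ₗ[↥E] ↥(extendScalars hle) where
  toFun y := ⟨y.1, (mem_extendScalars hle).mpr y.2⟩
  invFun y := ⟨y.1, (mem_extendScalars hle).mp y.2⟩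
  map_add' _ _ := rfl
  map_smul' a y := by
    apply Subtype.ext
    show ((a • y : ↥E') : Ω) = (a : Ω) * (y : Ω)
    rw [Algebra.smul_def]
    show ((algebraMap ↥E ↥E' a : ↥E') : Ω) * (y : Ω) = _
    rw [hcoe]
  left_inv _ := rfl
  right_inv _ := rfl

theorem finrank_eq_relfinrank (hle : E ≤ E') :
    Module.finrank ↥E ↥E' = relfinrank E E' := by
  rw [relfinrank_eq_finrank_of_le hle]
  exact (equivExt hcoe hle).finrank_eq

end Generic

/-! ### The tower `FF N ⊆ FF M` -/

section Tower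

variable {N M : ℕ} [NeZero N] [NeZero M] [Algebra (FF N) (FF M)]
  (hcoe : ∀ x : FF N, ((algebraMap (FF N) (FF M) x : FF M) : LaurentSeries Qb) =
    (x : LaurentSeries Qb))

include hcoe

theorem finrank_bar_eq_relfinrank (hNM : N ∣ M) :
    Module.finrank (FF N) (FF M) =
      relfinrank (modularFunctionFieldBar N) (modularFunctionFieldBar M) :=
  finrank_eq_relfinrank hcoe (Fermat.Agent.RED.BASE.Interface12.fbar_mono hNM)

/-- **(F4)** `[FF M : FF N] · ψ(N) = ψ(M)`. -/
theorem finrank_bar (hNM : N ∣ M) :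
    Module.finrank (FF N) (FF M) * dedekindPsi N = dedekindPsi M := by
  rw [finrank_bar_eq_relfinrank hcoe hNM, mul_comm]
  exact Fermat.Agent.RED.LVL.LevelDegree17.psi_mul_relfinrank hNM

theorem finiteDimensional_bar (hNM : N ∣ M) : FiniteDimensional (FF N) (FF M) := by
  apply Module.finite_of_finrank_pos
  apply Nat.pos_of_ne_zero
  intro h0
  have := finrank_bar hcoe hNM
  rw [h0, zero_mul] at this
  exact (Fermat.Agent.X0.GNPsi.gnp_dedekindPsi_pos (NeZero.ne M)).ne this

theorem isIntegral_bar (hNM : N ∣ M) : Algebra.IsIntegral (FF N) (FF M) := by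
  haveI := finiteDimensional_bar hcoe hNM
  exact Algebra.IsIntegral.of_finite _ _

/-- **(F3)** the fundamental identity for `FF N ⊆ FF M` (= `hdF` of `Measure54.CuspSetup`). -/
theorem sum_ramificationIndex_bar [IsScalarTower Qb (FF N) (FF M)]
    [Algebra.IsIntegral (FF N) (FF M)] [HasPrincipalDivisors Qb (FF M)] (hNM : N ∣ M)
    (x : Place Qb (FF N)) :
    ∑ x' ∈ x.fiber (FF M), (x'.ramificationIndex (FF N) : ℤ) =
      (Module.finrank (FF N) (FF M) : ℤ) := by
  haveI := finiteDimensional_bar hcoe hNM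
  exact Fermat.Agent.ES.HECKE.FundIdentity19.sum_ramificationIndex
    (fun w f hf => exists_ord_sub_pos (Fermat.Agent.RED.TOP.FbarFacts20.isGen_j M) w hf) x

/-- **`d_F = d_E`**: `[FF M : FF N] = [κ(M) : κ(N)]` for `char k = ℓ ∤ M`. -/
theorem finrank_bar_eq_fullC (hNM : N ∣ M) (k : Type) [Field k] (ℓ : ℕ) [Fact ℓ.Prime]
    [CharP k ℓ] (hℓM : ¬ ℓ ∣ M)
    [Algebra ↥(modularFunctionFieldFullC k N) ↥(modularFunctionFieldFullC k M)]
    (hcoe' : ∀ x : ↥(modularFunctionFieldFullC k N),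
      ((algebraMap ↥(modularFunctionFieldFullC k N) ↥(modularFunctionFieldFullC k M) x :
        ↥(modularFunctionFieldFullC k M)) : LaurentSeries k) = (x : LaurentSeries k)) :
    Module.finrank (FF N) (FF M) =
      Module.finrank ↥(modularFunctionFieldFullC k N) ↥(modularFunctionFieldFullC k M) := by
  have h1 := finrank_bar hcoe hNM
  have h2 := Fermat.Agent.MAZ.Red.FundSep49.finrank_fullC k ℓ hcoe' hNM hℓM
  have hpos : 0 < dedekindPsi N := Fermat.Agent.X0.GNPsi.gnp_dedekindPsi_pos (NeZero.ne N)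
  exact Nat.eq_of_mul_eq_mul_right hpos (h1.trans h2.symm)

end Tower

/-! ### The two cusps of `FF p` -/

section Cusps

open Fermat.Agent.MAZ.Cusp Fermat.Agent.MAZ.Red.Measure54

variable (p : ℕ) [hp : Fact p.Prime]

/-- **(F1)** the orders of `j`, `j_p` at the two cusps. -/
theorem cuspOrds_bar {cZ : Place Qb (FF p)} (hcZ : IsCuspZero p cZ) :
    CuspOrds (jF p) (jpF p) p (cuspInf p) cZ := by
  have hp1 : (1 : ℤ) < p := by exact_mod_cast hp.out.one_lt
  refine ⟨?_, CuspPlaces55.cuspInf_ord_jF p, CuspPlaces55.cuspInf_ord_jNF p, hcZ.1, hcZ.2⟩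
  intro h
  have h1 := hcZ.1
  rw [← h] at h1
  have h2 : (cuspInf p).ord (jF p) = -1 := CuspPlaces55.cuspInf_ord_jF p
  rw [h2] at h1
  omega

/-- **(F2)** `j` has no pole outside the two cusps. -/
theorem ord_jF_nonneg {cZ : Place Qb (FF p)} (hcZ : IsCuspZero p cZ) (z : Place Qb (FF p))
    (h1 : z ≠ cuspInf p) (h2 : z ≠ cZ) : 0 ≤ z.ord (jF p) := by
  by_contra hneg
  push Not at hneg
  rcases CuspPkg55.eq_cuspInf_or_isCuspZero p z hneg with h | h
  · exact h1 h
  · exact h2 (h.trans (CuspPkg55.eq_cuspZero_of_isCuspZero p cZ hcZ).symm)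

/-- **(F2)** `j_p` has no pole outside the two cusps. -/
theorem ord_jpF_nonneg {cZ : Place Qb (FF p)} (hcZ : IsCuspZero p cZ) (z : Place Qb (FF p))
    (h1 : z ≠ cuspInf p) (h2 : z ≠ cZ) : 0 ≤ z.ord (jpF p) := by
  have h := ord_jF_nonneg p hcZ z h1 h2
  have hL := Fermat.Agent.MAZ.Moduli.ModPolyFF41.linkPkg p 1 p p hp.out (by rw [one_mul])
    (one_dvd p) dvd_rfl
  exact hL.nonneg_up z h

end Cusps

end Fermat.Agent.MAZ.Red.FSide49
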