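/-
MAZ (S15), X-side, brick X-INJ (R) = RMAP -- helper14 (statement: helper54 #2053).

**The place reduction map at a level `M` with a Hauptmodul base** (`4 ∣ M` or `9 ∣ M`, `ℓ ∤ M`):
there is `r : Place ℚ̄ (ℚ̄·F_M) → Place k (k·F̃_M)` (`k` the residue field of `A | ℓ`) with
`IsPlaceReductionModL A M r`.  Source: the two-chart model `ES/TOP/ModelAtFinal8.modelAt` at
`(n, e) = (4, 8)` resp. `(9, 3)` and `ES/TOP/SPFinal21.hr_main` (`r := T.r`).
-/
import Mathlib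
import Fermat.Agent.ES.TOP.ModelAtFinal8
import Fermat.Agent.ES.TOP.SPFinal21

set_option autoImplicit false

open AlgebraicCurve ModularCurve

namespace Fermat.Agent.MAZ.Red.RMap14

open Fermat.Agent Fermat.Agent.RED.Interface4 Fermat.Agent.RED.BASE.Hauptmodul12
  Fermat.Agent.ES.TOP

/-- **(R) RMAP**: existence of a place reduction map modulo `ℓ` at a level `M` divisible by `4` or
`9` and prime to `ℓ`. -/
theorem exists_isPlaceReductionModL {ℓ : ℕ} (hℓ : ℓ.Prime) (A : ValuationSubring Qbar)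
    (hA : A.LiesOverPrime ℓ) (M : ℕ) [NeZero M] (hM : 4 ∣ M ∨ 9 ∣ M) (hℓM : ¬ ℓ ∣ M) :
    ∃ r : Place Qbar (X0.FF M) → Place (IsLocalRing.ResidueField ↥A)
        ↥(modularFunctionFieldFullC (IsLocalRing.ResidueField ↥A) M),
      IsPlaceReductionModL A M r := by
  rcases hM with h4 | h9
  · obtain ⟨x, hx, T, hS0, hS1, hs0, peel0, peel1⟩ :=
      ModelAtFinal8.modelAt ℓ hℓ A hA 4 8 baseHyp_four M h4 hℓM
    exact ⟨T.r, SPFinal21.hr_main 4 8 hℓ hℓM (tMem_of_dvd baseHyp_four h4)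
      (tGenBase' baseHyp_four) A hA T hS0 hS1 hs0 peel0 peel1⟩
  · obtain ⟨x, hx, T, hS0, hS1, hs0, peel0, peel1⟩ :=
      ModelAtFinal8.modelAt ℓ hℓ A hA 9 3 baseHyp_nine M h9 hℓM
    exact ⟨T.r, SPFinal21.hr_main 9 3 hℓ hℓM (tMem_of_dvd baseHyp_nine h9)
      (tGenBase' baseHyp_nine) A hA T hS0 hS1 hs0 peel0 peel1⟩

end Fermat.Agent.MAZ.Red.RMap14
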