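/-
Program MAZ (S15), chapter Red, helper54: **X-INJ**, the concrete assembly.

`pic0_eq_zero_of_tube` : a class of `JZero p` represented by a degree-zero divisor supported on the
tube of a cusp at a place `A` over `q ≠ p`, and killed by an integer `m` prime to `q`, is zero.

Inputs (all as explicit hypotheses, discharged in the wiring file):
* `hr`     : a place reduction at an upper level `M` (`p ∣ M`, `q ∤ M`)   [RED: two-chart model];
* `hS`     : `Measure54.CuspSetup` (degrees, cusps of both function fields);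
* `hmem`   : reductions of integral functions of level `p` lie in `κ(p)`   [ES/RED/RedMem16];
* `hconst` : a function of `κ(p)` without zeros and poles is constant;
* `hend`   : the endgame (Gauss fraction + `S18Exports4.clBar`)            [MAZ/Red/Endgame99].
-/
import Mathlib
import Fermat.Agent.MAZ.Spec.TopInj62
import Fermat.Agent.MAZ.Red.CompatInst54

set_option autoImplicit false
set_option linter.unusedSectionVars false
set_option linter.style.haveILetI false

open AlgebraicCurve ModularCurve HahnSeries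

noncomputable section

namespace Fermat.Agent.MAZ.Red.TubeInj54

open Fermat.Agent.X0 Fermat.Agent.MAZ.Spec.XSpec62
open Fermat.Agent.MAZ.Red.Measure54 Fermat.Agent.MAZ.Red.FundSep54
open Fermat.Agent.MAZ.Red.CompatInst54

/-- The endgame statement at `(p, A)`, for a reduction homomorphism `π : A → k`: if every Gauss
fraction of `f` reduces to a constant, then the divisor `D` with `(f) = m D` is principal.
(For `π = IsLocalRing.residue A` this is `Endgame99.isPrincipal_of_gauss_const`.) -/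
def EndStmt (p q : ℕ) [NeZero p] (A : ValuationSubring Qb) {k : Type*} [Field k]
    (π : A →+* k) : Prop :=
  ∀ (D : Divisor Qb (FF p)) (m : ℕ), ¬ q ∣ m → ∀ f : FF p, f ≠ 0 →
    (∀ v : Place Qb (FF p), v.ord f = (m : ℤ) * D v) →
    (∀ a b : LaurentSeries ↥A, coeffMap A.subtype a ∈ modularFunctionFieldBar p →
      coeffMap A.subtype b ∈ modularFunctionFieldBar p →
      coeffMap π a ≠ 0 → coeffMap π b ≠ 0 →
      (∃ c : Qb, c ≠ 0 ∧ (f : LaurentSeries Qb) * coeffMap A.subtype b =
        HahnSeries.C c * coeffMap A.subtype a) →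
      ∃ c₀ : k, c₀ ≠ 0 ∧ coeffMap π a = HahnSeries.C c₀ * coeffMap π b) →
    ∃ s : FF p, s ≠ 0 ∧ ∀ v : Place Qb (FF p), D v = v.ord s

/-- an `A`-integral series with zero image over `ℚbar` is zero. -/
theorem eq_zero_of_coeffMap_subtype {A : ValuationSubring Qb} {a : LaurentSeries ↥A}
    (h : coeffMap A.subtype a = 0) : a = 0 := by
  ext n
  have := congrArg (fun y => y.coeff n) h
  simp only [coeffMap_coeff, HahnSeries.coeff_zero] at this
  rw [HahnSeries.coeff_zero]
  have h2 : ((a.coeff n : ↥A) : Qb) = ((0 : ↥A) : Qb) := this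
  exact h2

section Main

variable {p M : ℕ} [NeZero p] [NeZero M] [hpM : Fact (p ∣ M)]
variable {A : ValuationSubring Qb} {k : Type*} [Field k] (π : A →+* k)
variable [Algebra.IsIntegral (Kap k p) (Kap k M)] [HasPrincipalDivisors k (Kap k M)]
variable {r : Place Qb (FF M) → Place k (Kap k M)}

set_option maxHeartbeats 1600000 in
/-- **X-INJ for one tube**, in terms of an arbitrary pair of coordinates `(J, J_p)`. -/
theorem pic0_eq_zero_of_tube {q : ℕ} (hπ : ∀ u : A, π u = 0 ↔ ¬ IsUnit u)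
    (hr : IsPlaceReductionAlong A π M r)
    {J Jp : FF p} {Jt Jpt : Kap k p}
    (hJ : SameSeries π p J Jt) (hJp : SameSeries π p Jp Jpt)
    {d : ℤ} {xi x0 : Place Qb (FF p)} {Qi Q0 : Place k (Kap k p)}
    (hS : CuspSetup r J Jp Jt Jpt p d xi x0 Qi Q0)
    (hdeg : ∀ P : Place Qb (FF p), P.deg = 1)
    (hmem : ∀ Y : LaurentSeries ↥A, coeffMap A.subtype Y ∈ modularFunctionFieldBar p →
      coeffMap π Y ∈ modularFunctionFieldFullC k p)
    (hconst : ∀ g : Kap k p, g ≠ 0 → (∀ Q : Place k (Kap k p), Q.ord g = 0) →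
      ∃ c : k, g = algebraMap k (Kap k p) c)
    (hend : EndStmt p q A π)
    (D : Divisor.degZero (K := Qb) (F := FF p))
    (hD : ∀ y, (D : Divisor Qb (FF p)) y ≠ 0 → y = x0 ∨ ∃ a b : Qb,
      0 < y.ord (J - algebraMap Qb (FF p) a) ∧ 0 < y.ord (Jp - algebraMap Qb (FF p) b) ∧
      a ∉ A ∧ A.valuation (b ^ p) = A.valuation a)
    (m : ℕ) (hm : ¬ q ∣ m) (hmD : m • Pic0.mk D = 0) : Pic0.mk D = 0 := by
  classical
  set D0 : Divisor Qb (FF p) := (D : Divisor Qb (FF p)) with hD0
  -- a function with divisor `m D`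
  have hprin : (m • D0).IsPrincipal := by
    have h1 : ((m • D : Divisor.degZero (K := Qb) (F := FF p)) : Divisor Qb (FF p)) ∈
        Divisor.principal (K := Qb) (F := FF p) := by
      have h2 : Pic0.mk (m • D) = 0 := hmD
      exact AddSubgroup.mem_addSubgroupOf.mp ((QuotientAddGroup.eq_zero_iff _).mp h2)
    exact Divisor.mem_principal.mp h1
  obtain ⟨f, hf0, hf⟩ := hprin
  have hf' : ∀ v : Place Qb (FF p), v.ord f = (m : ℤ) * D0 v := by
    intro v
    rw [← hf v, Finsupp.smul_apply, nsmul_eq_mul]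
  -- the tube condition in `Measure54` form
  have hTube : ∀ x ∈ D0.support, x = x0 ∨ TubePt r J Jp Jt Jpt p x := by
    intro x hx
    rcases hD x (Finsupp.mem_support_iff.mp hx) with h | ⟨a, b, hxa, hxb, ha, hab⟩
    · exact Or.inl h
    · exact Or.inr (tubePt_of_values π hS.hp hπ hr hJ hJp hS.hF hS.hE ha hab hxa hxb)
  -- degree zero
  have hdeg0 : ∑ z ∈ D0.support, D0 z = 0 := by
    have h1 : Divisor.degree D0 = 0 := Divisor.mem_degZero.mp D.2
    rw [Divisor.degree, Finsupp.liftAddHom_apply, Finsupp.sum] at h1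
    rw [← h1]
    refine Finset.sum_congr rfl fun z _ => ?_
    rw [AddMonoidHom.coe_mulRight, hdeg z, Nat.cast_one]
    exact (mul_one _).symm
  -- the endgame
  obtain ⟨s, hs0, hs⟩ := hend D0 m hm f hf0 hf' (by
    intro a b ha hb hared hbred ⟨c, hc0, hrel⟩
    -- the four functions
    set P : FF p := ⟨coeffMap A.subtype a, ha⟩ with hP
    set Qf : FF p := ⟨coeffMap A.subtype b, hb⟩ with hQf
    set Pt : Kap k p := ⟨coeffMap π a, hmem a ha⟩ with hPt
    set Qt : Kap k p := ⟨coeffMap π b, hmem b hb⟩ with hQt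
    have hPt0 : Pt ≠ 0 := fun h => hared (congrArg Subtype.val h)
    have hQt0 : Qt ≠ 0 := fun h => hbred (congrArg Subtype.val h)
    have hP0 : P ≠ 0 := by
      intro h
      apply hared
      rw [eq_zero_of_coeffMap_subtype (congrArg Subtype.val h), map_zero]
    have hQ0 : Qf ≠ 0 := by
      intro h
      apply hbred
      rw [eq_zero_of_coeffMap_subtype (congrArg Subtype.val h), map_zero]
    have hSP : SameSeries π p P Pt := ⟨a, rfl, rfl⟩
    have hSQ : SameSeries π p Qf Qt := ⟨b, rfl, rfl⟩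
    have hcomp : Compat r (P / Qf) (Pt / Qt) :=
      compat_div r hP0 hQ0 hPt0 hQt0 (compat_of_sameSeries π hr hSP hPt0)
        (compat_of_sameSeries π hr hSQ hQt0)
    -- `f * Qf = c • P` in `FF p`
    have hrelF : f * Qf = algebraMap Qb (FF p) c * P := by
      apply Subtype.ext
      show (f : LaurentSeries Qb) * coeffMap A.subtype b =
        algebraMap Qb (LaurentSeries Qb) c * coeffMap A.subtype a
      rw [hrel, algebraMap_laurentSeries_eq_single]
      rfl
    have hC0 : algebraMap Qb (FF p) c ≠ 0 := by simpa using hc0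
    have hord : ∀ z : Place Qb (FF p), z.ord (P / Qf) = (m : ℤ) * D0 z := by
      intro z
      have h1 := congrArg z.ord hrelF
      rw [z.ord_mul hf0 hQ0, z.ord_mul hC0 hP0, FF.ord_algebraMap, zero_add] at h1
      rw [div_eq_mul_inv, z.ord_mul hP0 (inv_ne_zero hQ0), z.ord_inv, ← hf' z]
      omega
    have hzero := ord_eq_zero_of_tube r hS D0 hTube hdeg0 hcomp (m : ℤ) hord
    obtain ⟨c₀, hc₀⟩ := hconst (Pt / Qt) (div_ne_zero hPt0 hQt0) hzero
    have hc₀0 : c₀ ≠ 0 := by
      rintro rfl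
      rw [map_zero] at hc₀
      exact div_ne_zero hPt0 hQt0 hc₀
    refine ⟨c₀, hc₀0, ?_⟩
    have h2 : Pt = algebraMap k (Kap k p) c₀ * Qt := by
      rw [← hc₀, div_mul_cancel₀ _ hQt0]
    have h3 := congrArg Subtype.val h2
    show coeffMap π a = HahnSeries.C c₀ * coeffMap π b
    rw [show (Pt : LaurentSeries k) = coeffMap π a from rfl] at h3
    rw [h3]
    show algebraMap k (LaurentSeries k) c₀ * coeffMap π b = _
    rw [algebraMap_laurentSeries_eq_single]
    rfl)
  -- `D` is principal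
  have hDp : D0 ∈ Divisor.principal (K := Qb) (F := FF p) :=
    Divisor.mem_principal.mpr ⟨s, hs0, hs⟩
  exact (QuotientAddGroup.eq_zero_iff _).mpr (AddSubgroup.mem_addSubgroupOf.mpr hDp)

/-- **X-INJ for the tube of the cusp `0`.** -/
theorem tubeZero_inj {q : ℕ} (hπ : ∀ u : A, π u = 0 ↔ ¬ IsUnit u)
    (hr : IsPlaceReductionAlong A π M r)
    {Jt Jpt : Kap k p}
    (hJ : SameSeries π p (jF p) Jt) (hJp : SameSeries π p (jpF p) Jpt)
    {d : ℤ} {cZ : Place Qb (FF p)} {Qi Q0 : Place k (Kap k p)}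
    (hS : CuspSetup r (jF p) (jpF p) Jt Jpt p d (cuspInf p) cZ Qi Q0)
    (hdeg : ∀ P : Place Qb (FF p), P.deg = 1)
    (hmem : ∀ Y : LaurentSeries ↥A, coeffMap A.subtype Y ∈ modularFunctionFieldBar p →
      coeffMap π Y ∈ modularFunctionFieldFullC k p)
    (hconst : ∀ g : Kap k p, g ≠ 0 → (∀ Q : Place k (Kap k p), Q.ord g = 0) →
      ∃ c : k, g = algebraMap k (Kap k p) c)
    (hend : EndStmt p q A π) (m : ℕ) (hm : ¬ q ∣ m) :
    ∀ z ∈ supportedClasses (InTubeZero A cZ), m • z = 0 → z = 0 := by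
  rintro z ⟨D, hD, rfl⟩ hmz
  exact pic0_eq_zero_of_tube π hπ hr hJ hJp hS hdeg hmem hconst hend D (fun y hy => hD y hy)
    m hm hmz

/-- **X-INJ for the tube of the cusp `∞`** (the same argument with `j` and `j_p` exchanged). -/
theorem tubeInf_inj {q : ℕ} (hπ : ∀ u : A, π u = 0 ↔ ¬ IsUnit u)
    (hr : IsPlaceReductionAlong A π M r)
    {Jt Jpt : Kap k p}
    (hJ : SameSeries π p (jF p) Jt) (hJp : SameSeries π p (jpF p) Jpt)
    {d : ℤ} {cZ : Place Qb (FF p)} {Qi Q0 : Place k (Kap k p)}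
    (hS : CuspSetup r (jF p) (jpF p) Jt Jpt p d (cuspInf p) cZ Qi Q0)
    (hdeg : ∀ P : Place Qb (FF p), P.deg = 1)
    (hmem : ∀ Y : LaurentSeries ↥A, coeffMap A.subtype Y ∈ modularFunctionFieldBar p →
      coeffMap π Y ∈ modularFunctionFieldFullC k p)
    (hconst : ∀ g : Kap k p, g ≠ 0 → (∀ Q : Place k (Kap k p), Q.ord g = 0) →
      ∃ c : k, g = algebraMap k (Kap k p) c)
    (hend : EndStmt p q A π) (m : ℕ) (hm : ¬ q ∣ m) :
    ∀ z ∈ supportedClasses (InTubeInf (p := p) A), m • z = 0 → z = 0 := by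
  rintro z ⟨D, hD, rfl⟩ hmz
  refine pic0_eq_zero_of_tube π hπ hr hJp hJ hS.swap hdeg hmem hconst hend D (fun y hy => ?_)
    m hm hmz
  rcases hD y hy with h | ⟨a, b, hxa, hxb, ha, hab⟩
  · exact Or.inl h
  · refine Or.inr ⟨b, a, hxb, hxa, ?_, hab.symm⟩
    intro hb
    have h1 : A.valuation b ≤ 1 := (A.valuation_le_one_iff b).mpr hb
    have h2 : 1 < A.valuation a := by
      by_contra h
      rw [not_lt] at h
      exact ha ((A.valuation_le_one_iff a).mp h)
    rw [hab, map_pow] at h1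
    have h3 : 1 < A.valuation a ^ p := one_lt_pow₀ h2 (NeZero.ne p)
    exact absurd h1 (not_le.mpr h3)

end Main

/-- **X-INJ from its inputs.**  For every place `A` of `ℚbar` over a prime `q ≠ p` one needs: a
field `k` with a homomorphism `π : A → k` whose kernel is the set of non-units (the residue field),
an upper level `M` (`p ∣ M`), a place reduction `r` at level `M`, the cusp package `CuspSetup`,
the membership `hmem`, the constancy `hconst` and the endgame `EndStmt`. -/
theorem xInj_of {p : ℕ} [NeZero p] (cZ : Place Qb (FF p))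
    (hdeg : ∀ P : Place Qb (FF p), P.deg = 1)
    (H : ∀ q : ℕ, q.Prime → q ≠ p → ∀ A : ValuationSubring Qb, A.LiesOverPrime q →
      ∃ (k : Type) (_ : Field k) (π : ↥A →+* k) (M : ℕ) (_ : NeZero M) (_ : Fact (p ∣ M))
        (_ : Algebra.IsIntegral (Kap k p) (Kap k M))
        (_ : HasPrincipalDivisors k (Kap k M))
        (r : Place Qb (FF M) → Place k (Kap k M)) (d : ℤ) (Qi Q0 : Place k (Kap k p)),
        (∀ u : ↥A, π u = 0 ↔ ¬ IsUnit u) ∧
        IsPlaceReductionAlong A π M r ∧
        CuspSetup r (jF p) (jpF p) (jC k p) (jdC k p p dvd_rfl) p d (cuspInf p) cZ Qi Q0 ∧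
        (∀ Y : LaurentSeries ↥A, coeffMap A.subtype Y ∈ modularFunctionFieldBar p →
          coeffMap π Y ∈ modularFunctionFieldFullC k p) ∧
        (∀ g : Kap k p, g ≠ 0 → (∀ Q : Place k (Kap k p), Q.ord g = 0) →
          ∃ c : k, g = algebraMap k (Kap k p) c) ∧
        EndStmt p q A π) :
    Fermat.Agent.MAZ.Spec.TopInj62.XInj p cZ := by
  intro q hq hqp A hA m hm
  obtain ⟨k, hk, π, M, hM, hpM, hint, hpd, r, d, Qi, Q0, hπ, hr, hS, hmem, hconst, hend⟩ :=
    H q hq hqp A hA
  have hJ : SameSeries π p (jF p) (jC k p) := sameSeries_j π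
  have hJp : SameSeries π p (jpF p) (jdC k p p dvd_rfl) := sameSeries_jd π p dvd_rfl
  exact ⟨tubeZero_inj π hπ hr hJ hJp hS hdeg hmem hconst hend m hm,
    tubeInf_inj π hπ hr hJ hJp hS hdeg hmem hconst hend m hm⟩

end Fermat.Agent.MAZ.Red.TubeInj54
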