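/-
Program MAZ (S15), chapter Red, helper54: X-INJ, preparation of the inputs of `TubeInj54.xInj_of`
which do not depend on the three delegated bricks (F-SIDE, ENDGAME, RMAP):

* `exists_const_of_ord_eq_zero` : "no zeros and poles ⇒ constant" descends along `E ⊆ E'`;
* `exists_cuspOrdsC`            : the two cusps of the special fibre at level `p`
                                  (`QPlace45.inftyC` and `CuspZeroC62.exists_cuspZeroC`);
* `finrank_eq_of_mul_psi`       : the two degrees agree.
-/
import Mathlib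
import Fermat.Agent.MAZ.Red.CompatInst54
import Fermat.Agent.MAZ.Red.CuspZeroC62
import Fermat.Agent.M1.Link.QPlace45

set_option autoImplicit false
set_option linter.unusedSectionVars false
set_option linter.style.haveILetI false

open AlgebraicCurve ModularCurve HahnSeries

noncomputable section

namespace Fermat.Agent.MAZ.Red.XInjPrep54

open Fermat.Agent.X0
open Fermat.Agent.MAZ.Red.Measure54 Fermat.Agent.MAZ.Red.CompatInst54
open Fermat.Agent.M1.Link.QPlace45

/-- "No zeros and no poles ⇒ constant" descends from `E'` to a subfield `E`. -/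
theorem exists_const_of_ord_eq_zero {k E E' : Type*} [Field k] [Field E] [Field E']
    [Algebra k E] [Algebra k E'] [Algebra E E'] [IsScalarTower k E E'] [Algebra.IsIntegral E E']
    (hE' : ∀ f : E', (∀ v : Place k E', f ∈ v.toValuationSubring) →
      ∃ c : k, f = algebraMap k E' c)
    {g : E} (hg : ∀ Q : Place k E, Q.ord g = 0) : ∃ c : k, g = algebraMap k E c := by
  obtain ⟨c, hc⟩ := hE' (algebraMap E E' g) (fun v => by
    apply FF.mem_of_ord_nonneg
    rw [Place.ord_restrict, hg, mul_zero])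
  refine ⟨c, ?_⟩
  apply (algebraMap E E').injective
  rw [hc, ← IsScalarTower.algebraMap_apply]

/-- **The two cusps of the special fibre at level `p`.** -/
theorem exists_cuspOrdsC (p ℓ : ℕ) [NeZero p] [Fact p.Prime] [Fact ℓ.Prime] (k : Type) [Field k]
    [CharP k ℓ] (hℓp : ℓ ≠ p) :
    ∃ Q0 : Place k (Kap k p), CuspOrds (jC k p) (jdC k p p dvd_rfl) p (inftyC k p) Q0 := by
  obtain ⟨Q0, h1, h2⟩ := Fermat.Agent.MAZ.Red.CuspZeroC62.exists_cuspZeroC p ℓ k hℓp
  have hp2 : 2 ≤ p := (Fact.out : p.Prime).two_le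
  have hi1 : (inftyC k p).ord (jC k p) = -1 := by
    rw [ord_inftyC]
    exact order_jqModC' k
  have hi2 : (inftyC k p).ord (jdC k p p dvd_rfl) = -(p : ℤ) := by
    rw [ord_inftyC, coe_jdC, Fermat.Agent.IG.PR.ThetaV1.order_qExpand, order_jqModC']
    ring
  have h1' : Q0.ord (jC k p) = -(p : ℤ) := h1
  have h2' : Q0.ord (jdC k p p dvd_rfl) = -1 := h2
  refine ⟨Q0, ⟨?_, hi1, hi2, h1', h2'⟩⟩
  intro h
  rw [h] at hi1
  omega

/-- Two numbers with the same product with `ψ ≠ 0` agree. -/
theorem finrank_eq_of_mul_psi {a b ψN ψM : ℕ} (hψ : ψN ≠ 0) (ha : a * ψN = ψM)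
    (hb : b * ψN = ψM) : a = b :=
  Nat.eq_of_mul_eq_mul_right (Nat.pos_of_ne_zero hψ) (ha.trans hb.symm)

end Fermat.Agent.MAZ.Red.XInjPrep54
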