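/-
Program MAZ (S15), chapter Red, helper54: **X-INJ, the wiring.**

`xInj_of_rmap` : `TopInj62.XInj p cZ` for every prime `p` and every cusp-zero place `cZ`, from ONE
remaining input: the existence of a place reduction at the auxiliary level (`RMap14`).

Inputs (all on main): `TubeInj54.xInj_of` (the argument), `FSide49` (tower `FF p ⊆ FF M`, cusps of
`FF p`), `FundSep49` (tower `κ(p) ⊆ κ(M)`), `XInjPrep54` / `CuspZeroC62` / `QPlace45` (cusps of
`κ(p)`), `RedMem16` (membership), `ConstFullC49` (constancy), `Endgame54` (endgame).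
-/
import Mathlib
import Fermat.Agent.MAZ.Red.TubeInj54
import Fermat.Agent.MAZ.Red.XInjPrep54
import Fermat.Agent.MAZ.Red.FSide49
import Fermat.Agent.MAZ.Red.ConstFullC49
import Fermat.Agent.MAZ.Red.Endgame54
import Fermat.Agent.ES.RED.RedMem16
import Fermat.Agent.ES.KRON.KronInst10

set_option autoImplicit false
set_option linter.unusedSectionVars false
set_option linter.style.haveILetI false

open AlgebraicCurve ModularCurve HahnSeries

noncomputable section

namespace Fermat.Agent.MAZ.Red.XInjFinal54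

open Fermat.Agent.X0 Fermat.Agent.MAZ.Spec.XSpec62
open Fermat.Agent.MAZ.Red.Measure54 Fermat.Agent.MAZ.Red.FundSep54
open Fermat.Agent.MAZ.Red.CompatInst54 Fermat.Agent.MAZ.Red.TubeInj54
open Fermat.Agent.RED.Interface4
open Fermat.Agent.M1.Link.QPlace45

theorem four_or_nine_dvd_auxLevel54 (q p : ℕ) : 4 ∣ auxLevel q p ∨ 9 ∣ auxLevel q p := by
  unfold auxLevel
  split_ifs
  · exact Or.inr (Nat.dvd_lcm_right p 9)
  · exact Or.inl (Nat.dvd_lcm_right p 4)

set_option synthInstance.maxHeartbeats 400000 in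
/-- The statement of `RMap14.exists_isPlaceReductionModL`. -/
def RMapStmt : Prop :=
  ∀ {ℓ : ℕ}, ℓ.Prime → ∀ A : ValuationSubring Qb, A.LiesOverPrime ℓ → ∀ (M : ℕ) [NeZero M],
    (4 ∣ M ∨ 9 ∣ M) → ¬ ℓ ∣ M →
    ∃ r : Place Qb (FF M) → Place (IsLocalRing.ResidueField ↥A)
      ↥(modularFunctionFieldFullC (IsLocalRing.ResidueField ↥A) M), IsPlaceReductionModL A M r

set_option synthInstance.maxHeartbeats 400000 in
set_option maxHeartbeats 3200000 in
/-- **X-INJ**, from the existence of place reductions at the auxiliary levels. -/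
theorem xInj_of_rmap {p : ℕ} [NeZero p] (hp : p.Prime) (cZ : Place Qb (FF p))
    (hcZ : IsCuspZero p cZ) (hR : RMapStmt) : Fermat.Agent.MAZ.Spec.TopInj62.XInj p cZ := by
  haveI : Fact p.Prime := ⟨hp⟩
  refine xInj_of cZ (fun P => Fermat.Agent.RED.TOP.FbarFacts20.deg_eq_one_bar p P) ?_
  intro q hq hqp A hA
  haveI : Fact q.Prime := ⟨hq⟩
  have hqp' : ¬ q ∣ p := fun h => hqp ((Nat.prime_dvd_prime_iff_eq hq hp).mp h)
  have hpM : p ∣ auxLevel q p := dvd_auxLevel q p
  have hqM : ¬ q ∣ auxLevel q p := not_dvd_auxLevel hq hqp'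
  haveI hMne : NeZero (auxLevel q p) := ⟨(auxLevel_pos (NeZero.pos p)).ne'⟩
  haveI hFact : Fact (p ∣ auxLevel q p) := ⟨hpM⟩
  have h49 : 4 ∣ auxLevel q p ∨ 9 ∣ auxLevel q p := four_or_nine_dvd_auxLevel54 q p
  obtain ⟨r, hr⟩ := hR hq A hA (auxLevel q p) h49 hqM
  -- the residue field
  haveI : IsAlgClosed (IsLocalRing.ResidueField ↥A) :=
    Fermat.Agent.ES.KRON.KronInst10.isAlgClosed_residueField A
  haveI : CharP (IsLocalRing.ResidueField ↥A) q :=
    Fermat.Agent.ES.KRON.KronInst10.charP_residueField A hq hA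
  have hcoeC := coe_algebraMap_C (N := p) (M := auxLevel q p) (IsLocalRing.ResidueField ↥A)
  have hcoeF := coe_algebraMap_bar (N := p) (M := auxLevel q p)
  haveI hint : Algebra.IsIntegral (Kap (IsLocalRing.ResidueField ↥A) p)
      (Kap (IsLocalRing.ResidueField ↥A) (auxLevel q p)) :=
    Fermat.Agent.MAZ.Red.FundSep49.isIntegral_fullC (IsLocalRing.ResidueField ↥A) q hcoeC hpM hqM
  haveI hpd : HasPrincipalDivisors (IsLocalRing.ResidueField ↥A)
      (Kap (IsLocalRing.ResidueField ↥A) (auxLevel q p)) :=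
    Fermat.Agent.M1.Link.SpecialLHypBase99.hasPrincipalDivisors_fullC_of_four_or_nine h49 q hqM A hA
  obtain ⟨Q0, hE⟩ := Fermat.Agent.MAZ.Red.XInjPrep54.exists_cuspOrdsC p q
    (IsLocalRing.ResidueField ↥A) hqp
  have hjC0 : jC (IsLocalRing.ResidueField ↥A) p ≠ 0 := by
    intro h
    have := hE.xi_J
    rw [h, Place.ord_zero] at this
    omega
  have hjdC0 : jdC (IsLocalRing.ResidueField ↥A) p p dvd_rfl ≠ 0 := by
    intro h
    have := hE.x0_Jp
    rw [h, Place.ord_zero] at this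
    omega
  haveI hfd : FiniteDimensional (FF p) (FF (auxLevel q p)) :=
    Fermat.Agent.MAZ.Red.FSide49.finiteDimensional_bar hcoeF hpM
  have hcJ : Compat r (jF p)⁻¹ (jC (IsLocalRing.ResidueField ↥A) p)⁻¹ :=
    compat_inv r (compat_of_sameSeries (IsLocalRing.residue ↥A) hr
      (sameSeries_j (IsLocalRing.residue ↥A)) hjC0)
  have hcJp0 : Compat r (jpF p) (jdC (IsLocalRing.ResidueField ↥A) p p dvd_rfl) :=
    compat_of_sameSeries (IsLocalRing.residue ↥A) hr
      (sameSeries_jd (IsLocalRing.residue ↥A) p dvd_rfl) hjdC0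
  have hcJp : Compat r (jpF p)⁻¹ (jdC (IsLocalRing.ResidueField ↥A) p p dvd_rfl)⁻¹ :=
    compat_inv r hcJp0
  have hsetup : CuspSetup r (jF p) (jpF p) (jC (IsLocalRing.ResidueField ↥A) p)
      (jdC (IsLocalRing.ResidueField ↥A) p p dvd_rfl) p
      (Module.finrank (FF p) (FF (auxLevel q p)) : ℤ) (cuspInf p) cZ
      (inftyC (IsLocalRing.ResidueField ↥A) p) Q0 :=
    { hp := hp.two_le
      hd := by exact_mod_cast Module.finrank_pos
      hdF := fun x => Fermat.Agent.MAZ.Red.FSide49.sum_ramificationIndex_bar hcoeF hpM x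
      hdE := fun Q => by
        rw [Fermat.Agent.MAZ.Red.FSide49.finrank_bar_eq_fullC hcoeF hpM
          (IsLocalRing.ResidueField ↥A) q hqM hcoeC]
        exact Fermat.Agent.MAZ.Red.FundSep49.sum_ramificationIndex_fullC
          (IsLocalRing.ResidueField ↥A) q hcoeC hpM hqM Q
      hF := Fermat.Agent.MAZ.Red.FSide49.cuspOrds_bar p hcZ
      hE := hE
      J_poles := fun z h1 h2 => Fermat.Agent.MAZ.Red.FSide49.ord_jF_nonneg p hcZ z h1 h2
      Jp_poles := fun z h1 h2 => Fermat.Agent.MAZ.Red.FSide49.ord_jpF_nonneg p hcZ z h1 h2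
      cJ := hcJ
      cJp := hcJp }
  refine ⟨IsLocalRing.ResidueField ↥A, inferInstance, IsLocalRing.residue ↥A, auxLevel q p, hMne,
    hFact, hint, hpd, r, (Module.finrank (FF p) (FF (auxLevel q p)) : ℤ),
    inftyC (IsLocalRing.ResidueField ↥A) p, Q0, residue_eq_zero_iff_not_isUnit A, hr, hsetup,
    ?_, ?_, ?_⟩
  · exact fun Y hY =>
      Fermat.Agent.ES.RED.RedMem16.coeffMap_residue_mem_fullC A q hA hqp' Y hY
  · exact fun g _ hg =>
      Fermat.Agent.MAZ.Red.ConstFullC49.exists_const_of_forall_ord_eq_zero h49 q hqM A hA g hg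
  · exact fun D m hm f hf0 hf H =>
      Fermat.Agent.MAZ.Red.Endgame54.isPrincipal_of_gauss_const hqp' A hA D m hm f hf0 hf H

end Fermat.Agent.MAZ.Red.XInjFinal54
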