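/-
Program MAZ (S15), chapter Red, helper54: **X-INJ IS A THEOREM.**

`xInj'` : `TopInj62.XInj p cZ` for every prime `p` and every place `cZ` with the orders of the
cusp `0`; `xInj` : the instance `cZ = CuspPlaces55.cuspZero p` consumed by
`XFinal62.s15_of_inj_eis`.

= `XInjFinal54.xInj_of_rmap` + `RMap14.exists_isPlaceReductionModL` (helper14).
-/
import Mathlib
import Fermat.Agent.MAZ.Red.XInjFinal54
import Fermat.Agent.MAZ.Red.RMap14

set_option autoImplicit false

open AlgebraicCurve ModularCurve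

noncomputable section

namespace Fermat.Agent.MAZ.Red.XInj54

open Fermat.Agent.X0 Fermat.Agent.MAZ.Spec.XSpec62

/-- `RMap14` in the form consumed by `XInjFinal54`. -/
theorem rmapStmt : Fermat.Agent.MAZ.Red.XInjFinal54.RMapStmt :=
  fun hℓ A hA M _ hM hℓM =>
    Fermat.Agent.MAZ.Red.RMap14.exists_isPlaceReductionModL hℓ A hA M hM hℓM

/-- **(X-INJ)**: a class of `J₀(p)` supported in a tube at `q ≠ p` and killed by an integer prime
to `q` is zero. -/
theorem xInj' {p : ℕ} [NeZero p] (hp : p.Prime) (cZ : Place Qb (FF p))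
    (hcZ : IsCuspZero p cZ) : Fermat.Agent.MAZ.Spec.TopInj62.XInj p cZ :=
  Fermat.Agent.MAZ.Red.XInjFinal54.xInj_of_rmap hp cZ hcZ rmapStmt

/-- **(X-INJ)** at the cusp `0` of `CuspPlaces55`. -/
theorem xInj {p : ℕ} [hpF : Fact p.Prime] :
    Fermat.Agent.MAZ.Spec.TopInj62.XInj p (Fermat.Agent.MAZ.Cusp.CuspPlaces55.cuspZero p) :=
  xInj' hpF.out _ (Fermat.Agent.MAZ.Cusp.CuspPkg55.cuspPkg p).isCuspZero

end Fermat.Agent.MAZ.Red.XInj54
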